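/-
Weak Chebotarev (item 70, captain helper26): INTERFACE FILE (definitions only, no proofs).

Final statement `WeakChebotarev`: for `F/ℚ` finite Galois inside `ℚ̄`, a finite set `S` of primes and
`σ ∈ G_ℚ` there are a prime `ℓ ∉ S`, a valuation subring `A` of `ℚ̄` over `ℓ`, a Frobenius `τ` at `A`
and `m : ℕ` with `(τ ^ m)|F = σ|F`.

Pieces (each piece is a `Prop` below; the piece's theorem proves that `Prop`):
* `StmtPrimeSum`  (C1)  `∑_v Nv^{-s} = log (1/(s-1)) + O(1)`; primes of degree `≥ 2` contribute `O(1)`.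
* `StmtSplit`     (C2)  primes splitting completely in a Galois extension of degree `d`: density `1/d`.
* `StmtCyclic`    (C3)  cyclic `F/E`: there is a degree one prime of `E`, of norm outside `S`, with
                        exactly one prime of `F` above it.
* `StmtCyclicSplit` (C3a) splitting in the subfield of degree `d` of a cyclic extension.
* `StmtStab`      (C6)  unramified `P`: every `σ` in the stabiliser of `P` is a power of a Frobenius.
* `StmtGlue`      (C4)  a Frobenius at `P ⊂ 𝓞 F` is the restriction of a Frobenius at some `A ⊂ ℚ̄`.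
-/
import Mathlib
import Fermat.Prelude.Def_EllipticCurve_FrobeniusTrace

set_option autoImplicit false

namespace Fermat.Agent.Cheb

open NumberField IsDedekindDomain
open scoped Pointwise

/-- `A` has logarithmic density `δ`, with bounded error on `(1,2)`:
`∑_{v ∈ A} Nv^{-s} = δ log (1/(s-1)) + O(1)`. -/
def HasLogDensity {E : Type} [Field E] [NumberField E]
    (A : Set (HeightOneSpectrum (𝓞 E))) (δ : ℝ) : Prop :=
  ∃ C : ℝ, ∀ s : ℝ, 1 < s → s < 2 →
    |A.primeIdealZetaSum s - δ * Real.log (1 / (s - 1))| ≤ C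

/-- (C1) prime ideal sums of a number field. -/
def StmtPrimeSum : Prop :=
  ∀ (E : Type) [Field E] [NumberField E],
    (∀ s : ℝ, 1 < s →
      Summable fun v : HeightOneSpectrum (𝓞 E) ↦ (Ideal.absNorm v.asIdeal : ℝ) ^ (-s)) ∧
    HasLogDensity (Set.univ : Set (HeightOneSpectrum (𝓞 E))) 1 ∧
    HasLogDensity {v : HeightOneSpectrum (𝓞 E) | ¬ (Ideal.absNorm v.asIdeal).Prime} 0

/-- `v` splits completely in `F`: there are exactly `[F : E]` primes of `𝓞 F` above `v`. -/
def SplitsCompletely {E : Type} [Field E] [NumberField E] (F : Type) [Field F] [NumberField F]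
    [Algebra E F] (v : HeightOneSpectrum (𝓞 E)) : Prop :=
  (Ideal.primesOver v.asIdeal (𝓞 F)).ncard = Module.finrank E F

/-- (C2) the primes splitting completely in a Galois extension of degree `d` have density `1/d`. -/
def StmtSplit : Prop :=
  ∀ (E F : Type) [Field E] [NumberField E] [Field F] [NumberField F] [Algebra E F] [IsGalois E F],
    HasLogDensity {v : HeightOneSpectrum (𝓞 E) | SplitsCompletely F v}
      (1 / (Module.finrank E F : ℝ))

/-- (C3) in a cyclic extension there is a degree one prime, of norm outside `S`, with a unique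
prime above it. -/
def StmtCyclic : Prop :=
  ∀ (E F : Type) [Field E] [NumberField E] [Field F] [NumberField F] [Algebra E F] [IsGalois E F]
    [IsCyclic (F ≃ₐ[E] F)] (S : Finset ℕ),
    ∃ v : HeightOneSpectrum (𝓞 E), (Ideal.absNorm v.asIdeal).Prime ∧
      Ideal.absNorm v.asIdeal ∉ S ∧ (Ideal.primesOver v.asIdeal (𝓞 F)).ncard = 1

/-- (C3a) algebra of a cyclic extension `F/E` of degree `n`: for every `d ∣ n` there is a Galois
extension `M/E` of degree `d` (the fixed field of the subgroup of index `d`) such that a prime `v` of `E`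
splits completely in `M` iff `d` divides the number of primes of `F` above `v`.
(No ramification hypothesis is needed: #primes of `M` above `v` = `[C : H·D] = gcd(d, g)`.) -/
def StmtCyclicSplit : Prop :=
  ∀ (E F : Type) [Field E] [NumberField E] [Field F] [NumberField F] [Algebra E F] [IsGalois E F]
    [IsCyclic (F ≃ₐ[E] F)] (d : ℕ), d ∣ Module.finrank E F →
    ∃ (M : Type) (_ : Field M) (_ : NumberField M) (_ : Algebra E M) (_ : IsGalois E M),
      Module.finrank E M = d ∧
      ∀ v : HeightOneSpectrum (𝓞 E),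
        SplitsCompletely M v ↔ d ∣ (Ideal.primesOver v.asIdeal (𝓞 F)).ncard

/-- (C6) at an unramified prime the stabiliser is generated by a Frobenius. -/
def StmtStab : Prop :=
  ∀ (F : Type) [Field F] [NumberField F] [IsGalois ℚ F] (P : Ideal (𝓞 F)) [P.IsPrime],
    P ≠ ⊥ → Algebra.IsUnramifiedAt ℤ P → ∀ σ : F ≃ₐ[ℚ] F, σ • P = P →
      ∃ (φ : F ≃ₐ[ℚ] F) (m : ℕ), IsArithFrobAt ℤ φ P ∧ σ = φ ^ m

/-- (C4) glue to `ℚ̄`: a Frobenius at a prime `P` of `𝓞 F` over `ℓ` (unramified) is the restriction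
of a Frobenius at a valuation subring of `ℚ̄` over `ℓ`. -/
def StmtGlue : Prop :=
  ∀ (F : IntermediateField ℚ (AlgebraicClosure ℚ)) [NumberField F] [IsGalois ℚ F]
    (P : Ideal (𝓞 F)) [P.IsPrime] (ℓ : ℕ), ℓ.Prime → (ℓ : 𝓞 F) ∈ P →
    Algebra.IsUnramifiedAt ℤ P → ∀ φ : F ≃ₐ[ℚ] F, IsArithFrobAt ℤ φ P →
      ∃ (A : ValuationSubring (AlgebraicClosure ℚ))
        (τ : AlgebraicClosure ℚ ≃ₐ[ℚ] AlgebraicClosure ℚ),
        A.LiesOverPrime ℓ ∧ A.IsFrobeniusAt τ ℓ ∧ ∀ x : F, τ (x : AlgebraicClosure ℚ) = φ x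

/-- The final statement. -/
def WeakChebotarev : Prop :=
  ∀ (F : IntermediateField ℚ (AlgebraicClosure ℚ)) [FiniteDimensional ℚ F] [IsGalois ℚ F]
    (S : Finset ℕ) (σ : AlgebraicClosure ℚ ≃ₐ[ℚ] AlgebraicClosure ℚ),
    ∃ (ℓ : ℕ) (A : ValuationSubring (AlgebraicClosure ℚ))
      (τ : AlgebraicClosure ℚ ≃ₐ[ℚ] AlgebraicClosure ℚ) (m : ℕ),
      ℓ.Prime ∧ ℓ ∉ S ∧ A.LiesOverPrime ℓ ∧ A.IsFrobeniusAt τ ℓ ∧
        ∀ x ∈ F, (τ ^ m) x = σ x

end Fermat.Agent.Cheb
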