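/-
Weak Chebotarev (item 70), piece C5: the assembly
`weakChebotarev : StmtCyclic → StmtStab → StmtGlue → WeakChebotarev`.  (Owner: helper59.)

Proof: `σ_F := σ|F`, `E :=` fixed field of `⟨σ_F⟩`, so `F/E` is cyclic.  `StmtCyclic` (with `S`
enlarged by the primes dividing `discr F`) gives a prime `v` of `E` of prime norm `ℓ ∉ S` with a
unique prime `P` of `F` above it.  `σ_F` fixes `E`, hence `σ_F • P` lies over `v`, hence
`σ_F • P = P`.  `StmtStab`: `σ_F = φ ^ m` for a Frobenius `φ` at `P`; `StmtGlue`: `φ = τ|F` for a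
Frobenius `τ` at a valuation subring of `ℚ̄` over `ℓ`.
-/
import Fermat.Agent.Cheb.Plan

set_option autoImplicit false
set_option linter.style.haveILetI false

namespace Fermat.Agent.Cheb

open NumberField IsDedekindDomain
open scoped Pointwise

/-- A finite set of primes containing all primes dividing the discriminant. -/
lemma C5.exists_finset_discr (K : Type) [Field K] [NumberField K] :
    ∃ T : Finset ℕ, ∀ ℓ : ℕ, ℓ.Prime → (ℓ : ℤ) ∣ discr K → ℓ ∈ T := by
  refine ⟨(discr K).natAbs.primeFactors, fun ℓ hℓ h => ?_⟩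
  rw [Nat.mem_primeFactors]
  refine ⟨hℓ, ?_, ?_⟩
  · exact Int.natCast_dvd.mp h
  · exact Int.natAbs_ne_zero.mpr (discr_ne_zero K)

/-- Powers of an extension restrict to powers of the restriction. -/
lemma C5.pow_apply_of_restrict {F : IntermediateField ℚ (AlgebraicClosure ℚ)}
    (τ : AlgebraicClosure ℚ ≃ₐ[ℚ] AlgebraicClosure ℚ) (φ : F ≃ₐ[ℚ] F)
    (h : ∀ x : F, τ (x : AlgebraicClosure ℚ) = φ x) (m : ℕ) (x : F) :
    (τ ^ m) (x : AlgebraicClosure ℚ) = (φ ^ m) x := by
  induction m generalizing x with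
  | zero => simp
  | succ m ih =>
    rw [pow_succ, pow_succ, AlgEquiv.mul_apply, AlgEquiv.mul_apply, h, ih]

/-- An automorphism fixing the base field `E` maps a prime over `v` to a prime over `v`. -/
lemma C5.smul_mem_primesOver {F : Type} [Field F] [NumberField F] (E : IntermediateField ℚ F)
    [NumberField E] (σ : F ≃ₐ[ℚ] F) (hσ : ∀ x : E, σ⁻¹ (x : F) = x)
    (v : Ideal (𝓞 E)) (P : Ideal (𝓞 F)) (hP : P ∈ Ideal.primesOver v (𝓞 F)) :
    σ • P ∈ Ideal.primesOver v (𝓞 F) := by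
  haveI : P.IsPrime := hP.1
  have hPv : P.LiesOver v := hP.2
  refine ⟨inferInstance, ⟨?_⟩⟩
  rw [hPv.over]
  ext x
  rw [Ideal.mem_comap, Ideal.mem_comap, Ideal.mem_pointwise_smul_iff_inv_smul_mem]
  have : σ⁻¹ • (algebraMap (𝓞 E) (𝓞 F) x) = algebraMap (𝓞 E) (𝓞 F) x := by
    apply RingOfIntegers.ext
    exact hσ (x : E)
  rw [this]

theorem weakChebotarev (hC : StmtCyclic) (hS : StmtStab) (hG : StmtGlue) : WeakChebotarev := by
  intro F _ _ S σ
  haveI : NumberField F :=
    { to_charZero := inferInstance, to_finiteDimensional := inferInstance }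
  let σF : F ≃ₐ[ℚ] F := AlgEquiv.restrictNormal σ F
  have hσF : ∀ x : F, ((σF x : F) : AlgebraicClosure ℚ) = σ x := fun x =>
    AlgEquiv.restrictNormal_commutes σ F x
  let H : Subgroup (F ≃ₐ[ℚ] F) := Subgroup.zpowers σF
  let E : IntermediateField ℚ F := IntermediateField.fixedField H
  haveI : NumberField E :=
    { to_charZero := inferInstance, to_finiteDimensional := inferInstance }
  have hfix : E.fixingSubgroup = H := IntermediateField.fixingSubgroup_fixedField H
  haveI : IsCyclic H := inferInstance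
  haveI : IsCyclic E.fixingSubgroup := hfix ▸ ‹IsCyclic H›
  haveI : IsCyclic (F ≃ₐ[E] F) :=
    isCyclic_of_surjective (IntermediateField.fixingSubgroupEquiv E)
      (IntermediateField.fixingSubgroupEquiv E).surjective
  obtain ⟨T, hT⟩ := C5.exists_finset_discr F
  obtain ⟨v, hvp, hvS, hv1⟩ := hC E F (S ∪ T)
  obtain ⟨P, hP⟩ := Set.ncard_eq_one.mp hv1
  have hPmem : P ∈ Ideal.primesOver v.asIdeal (𝓞 F) := by rw [hP]; exact Set.mem_singleton P
  haveI : P.IsPrime := hPmem.1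
  have hPv : P.LiesOver v.asIdeal := hPmem.2
  have hPbot : P ≠ ⊥ := Ideal.ne_bot_of_mem_primesOver v.ne_bot hPmem
  have hℓP : ((Ideal.absNorm v.asIdeal : ℕ) : 𝓞 F) ∈ P := by
    have h1 : ((Ideal.absNorm v.asIdeal : ℕ) : 𝓞 E) ∈ v.asIdeal := Ideal.absNorm_mem v.asIdeal
    have h2 := (Ideal.mem_of_liesOver P v.asIdeal _).mp h1
    rwa [map_natCast] at h2
  have hnd : ¬ ((Ideal.absNorm v.asIdeal : ℕ) : ℤ) ∣ discr F := fun h =>
    hvS (Finset.mem_union_right _ (hT _ hvp h))
  have hunr : Algebra.IsUnramifiedAt ℤ P :=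
    (not_dvd_discr_iff_forall_mem F (𝓞 F) (Nat.prime_iff_prime_int.mp hvp)).mp hnd P inferInstance
      (by rw [Int.cast_natCast]; exact hℓP)
  have hσmem : σF⁻¹ ∈ E.fixingSubgroup := by
    rw [hfix]
    exact Subgroup.inv_mem _ (Subgroup.mem_zpowers σF)
  have hstab : σF • P = P := by
    have := C5.smul_mem_primesOver E σF (fun x => hσmem x) v.asIdeal P hPmem
    rw [hP] at this
    exact this
  obtain ⟨φ, m, hφ, hσφ⟩ := hS F P hPbot hunr σF hstab
  obtain ⟨A, τ, hA, hτ, hτφ⟩ := hG F P _ hvp hℓP hunr φ hφ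
  refine ⟨_, A, τ, m, hvp, fun h => hvS (Finset.mem_union_left _ h), hA, hτ, ?_⟩
  intro x hx
  rw [C5.pow_apply_of_restrict τ φ hτφ m ⟨x, hx⟩, ← hσφ]
  exact hσF ⟨x, hx⟩

end Fermat.Agent.Cheb
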