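/-
Weak Chebotarev, piece C1b (helper26): algebra of `HasLogDensity`.
All lemmas take the summability of `v ↦ Nv^{-s}` (`s > 1`) over all primes as a hypothesis `hE`
(it is the first part of `StmtPrimeSum`).
-/
import Fermat.Agent.Cheb.Plan

set_option autoImplicit false

namespace Fermat.Agent.Cheb

open NumberField IsDedekindDomain Filter Topology

variable {E : Type} [Field E] [NumberField E]

/-- the summand `Nv^{-s}` -/
noncomputable def nrm (E : Type) [Field E] [NumberField E] (s : ℝ)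
    (v : HeightOneSpectrum (𝓞 E)) : ℝ :=
  (Ideal.absNorm v.asIdeal : ℝ) ^ (-s)

theorem nrm_nonneg (s : ℝ) (v : HeightOneSpectrum (𝓞 E)) : 0 ≤ nrm E s v := by
  unfold nrm; positivity

theorem one_le_absNorm (v : HeightOneSpectrum (𝓞 E)) : 1 ≤ Ideal.absNorm v.asIdeal := by
  rw [Nat.one_le_iff_ne_zero, Ne, Ideal.absNorm_eq_zero_iff]
  exact v.ne_bot

theorem nrm_le_one {s : ℝ} (hs : 0 ≤ s) (v : HeightOneSpectrum (𝓞 E)) : nrm E s v ≤ 1 := by
  unfold nrm
  apply Real.rpow_le_one_of_one_le_of_nonpos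
  · exact_mod_cast one_le_absNorm v
  · linarith

/-- Summability hypothesis. -/
def PrimeSummable (E : Type) [Field E] [NumberField E] : Prop :=
  ∀ s : ℝ, 1 < s → Summable fun v : HeightOneSpectrum (𝓞 E) ↦ nrm E s v

theorem primeIdealZetaSum_eq_tsum_indicator (A : Set (HeightOneSpectrum (𝓞 E))) (s : ℝ) :
    A.primeIdealZetaSum s = ∑' v, A.indicator (nrm E s) v := by
  rw [NumberField.Set.primeIdealZetaSum_def]
  exact tsum_subtype A (nrm E s)

theorem summable_indicator (hE : PrimeSummable E) (A : Set (HeightOneSpectrum (𝓞 E)))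
    {s : ℝ} (hs : 1 < s) : Summable (A.indicator (nrm E s)) :=
  (hE s hs).indicator A

theorem primeIdealZetaSum_mono (hE : PrimeSummable E) {A B : Set (HeightOneSpectrum (𝓞 E))}
    (hAB : A ⊆ B) {s : ℝ} (hs : 1 < s) : A.primeIdealZetaSum s ≤ B.primeIdealZetaSum s := by
  rw [primeIdealZetaSum_eq_tsum_indicator, primeIdealZetaSum_eq_tsum_indicator]
  refine (summable_indicator hE A hs).tsum_le_tsum (fun v => ?_) (summable_indicator hE B hs)
  exact Set.indicator_le_indicator_of_subset hAB (fun v => nrm_nonneg s v) v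

theorem primeIdealZetaSum_union (hE : PrimeSummable E) {A B : Set (HeightOneSpectrum (𝓞 E))}
    (hAB : Disjoint A B) {s : ℝ} (hs : 1 < s) :
    (A ∪ B).primeIdealZetaSum s = A.primeIdealZetaSum s + B.primeIdealZetaSum s := by
  rw [primeIdealZetaSum_eq_tsum_indicator, primeIdealZetaSum_eq_tsum_indicator,
    primeIdealZetaSum_eq_tsum_indicator,
    ← (summable_indicator hE A hs).tsum_add (summable_indicator hE B hs)]
  congr 1
  funext v
  rw [Set.indicator_union_of_disjoint hAB]

theorem primeIdealZetaSum_diff (hE : PrimeSummable E) {A B : Set (HeightOneSpectrum (𝓞 E))}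
    (hBA : B ⊆ A) {s : ℝ} (hs : 1 < s) :
    (A \ B).primeIdealZetaSum s = A.primeIdealZetaSum s - B.primeIdealZetaSum s := by
  have h := primeIdealZetaSum_union hE (A := A \ B) (B := B) Set.disjoint_sdiff_left hs
  rw [Set.sdiff_union_of_subset hBA] at h
  linarith

theorem hasLogDensity_zero_of_subset (hE : PrimeSummable E)
    {A B : Set (HeightOneSpectrum (𝓞 E))} (hAB : A ⊆ B) (hB : HasLogDensity B 0) :
    HasLogDensity A 0 := by
  obtain ⟨C, hC⟩ := hB
  refine ⟨C, fun s hs hs2 => ?_⟩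
  have h1 := hC s hs hs2
  have h2 := primeIdealZetaSum_mono hE hAB hs
  have h3 := NumberField.Set.primeIdealZetaSum_nonneg A s
  simp only [zero_mul, sub_zero] at h1 ⊢
  rw [abs_of_nonneg h3]
  exact h2.trans ((le_abs_self _).trans h1)

theorem hasLogDensity_zero_of_finite {A : Set (HeightOneSpectrum (𝓞 E))} (hA : A.Finite) :
    HasLogDensity A 0 := by
  refine ⟨A.ncard, fun s hs _ => ?_⟩
  simp only [zero_mul, sub_zero]
  rw [abs_of_nonneg (NumberField.Set.primeIdealZetaSum_nonneg A s)]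
  exact NumberField.Set.primeIdealZetaSum_le_card_of_finite hA (by linarith)

theorem HasLogDensity.union (hE : PrimeSummable E) {A B : Set (HeightOneSpectrum (𝓞 E))}
    {a b : ℝ} (hAB : Disjoint A B) (hA : HasLogDensity A a) (hB : HasLogDensity B b) :
    HasLogDensity (A ∪ B) (a + b) := by
  obtain ⟨C, hC⟩ := hA
  obtain ⟨D, hD⟩ := hB
  refine ⟨C + D, fun s hs hs2 => ?_⟩
  rw [primeIdealZetaSum_union hE hAB hs]
  have e : A.primeIdealZetaSum s + B.primeIdealZetaSum s - (a + b) * Real.log (1 / (s - 1)) =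
      (A.primeIdealZetaSum s - a * Real.log (1 / (s - 1))) +
      (B.primeIdealZetaSum s - b * Real.log (1 / (s - 1))) := by ring
  rw [e]
  exact (abs_add_le _ _).trans (add_le_add (hC s hs hs2) (hD s hs hs2))

theorem HasLogDensity.diff (hE : PrimeSummable E) {A B : Set (HeightOneSpectrum (𝓞 E))}
    {a b : ℝ} (hBA : B ⊆ A) (hA : HasLogDensity A a) (hB : HasLogDensity B b) :
    HasLogDensity (A \ B) (a - b) := by
  obtain ⟨C, hC⟩ := hA
  obtain ⟨D, hD⟩ := hB
  refine ⟨C + D, fun s hs hs2 => ?_⟩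
  rw [primeIdealZetaSum_diff hE hBA hs]
  have e : A.primeIdealZetaSum s - B.primeIdealZetaSum s - (a - b) * Real.log (1 / (s - 1)) =
      (A.primeIdealZetaSum s - a * Real.log (1 / (s - 1))) -
      (B.primeIdealZetaSum s - b * Real.log (1 / (s - 1))) := by ring
  rw [e]
  exact (abs_sub _ _).trans (add_le_add (hC s hs hs2) (hD s hs hs2))

/-- removing a set of density `0` does not change the density -/
theorem HasLogDensity.diff_zero (hE : PrimeSummable E) {A N : Set (HeightOneSpectrum (𝓞 E))}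
    {a : ℝ} (hA : HasLogDensity A a) (hN : HasLogDensity N 0) : HasLogDensity (A \ N) a := by
  have h1 : HasLogDensity (A ∩ N) 0 := hasLogDensity_zero_of_subset hE Set.inter_subset_right hN
  have h2 := HasLogDensity.diff hE (Set.inter_subset_left (s := A) (t := N)) hA h1
  have e : A \ (A ∩ N) = A \ N := by
    ext x
    simp only [Set.mem_sdiff, Set.mem_inter_iff, not_and]
    constructor
    · rintro ⟨hx, h⟩
      exact ⟨hx, h hx⟩
    · rintro ⟨hx, h⟩
      exact ⟨hx, fun _ => h⟩
  rw [e, sub_zero] at h2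
  exact h2

/-- adding a set of density `0` does not change the density -/
theorem HasLogDensity.union_zero (hE : PrimeSummable E) {A N : Set (HeightOneSpectrum (𝓞 E))}
    {a : ℝ} (hA : HasLogDensity A a) (hN : HasLogDensity N 0) : HasLogDensity (A ∪ N) a := by
  have h1 : HasLogDensity (N \ A) 0 := hasLogDensity_zero_of_subset hE Set.sdiff_subset hN
  have h2 := HasLogDensity.union hE (Set.disjoint_sdiff_right (s := A) (t := N)) hA h1
  rw [Set.union_sdiff_self, add_zero] at h2
  exact h2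

/-- two sets that differ by a set of density `0` have the same density -/
theorem HasLogDensity.congr_of_symmDiff (hE : PrimeSummable E)
    {A B N : Set (HeightOneSpectrum (𝓞 E))} {a : ℝ} (hA : HasLogDensity A a)
    (hN : HasLogDensity N 0) (h1 : A ⊆ B ∪ N) (h2 : B ⊆ A ∪ N) : HasLogDensity B a := by
  -- `B = ((A ∪ N) \ ((A ∪ N) \ B))`, and `(A ∪ N) \ B ⊆ N`
  have hAN : HasLogDensity (A ∪ N) a := hA.union_zero hE hN
  have hsub : (A ∪ N) \ B ⊆ N := by
    rintro x ⟨hx | hx, hxB⟩
    · rcases h1 hx with h | h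
      · exact absurd h hxB
      · exact h
    · exact hx
  have h0 : HasLogDensity ((A ∪ N) \ B) 0 := hasLogDensity_zero_of_subset hE hsub hN
  have h3 := hAN.diff_zero hE h0
  have e : (A ∪ N) \ ((A ∪ N) \ B) = B := by
    ext x
    constructor
    · rintro ⟨hx, hnx⟩
      by_contra hB
      exact hnx ⟨hx, hB⟩
    · intro hx
      exact ⟨h2 hx, fun h => h.2 hx⟩
  rw [e] at h3
  exact h3

theorem log_one_div_sub_one_tendsto :
    Tendsto (fun s : ℝ => Real.log (1 / (s - 1))) (𝓝[>] 1) atTop := by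
  have h1 : Tendsto (fun s : ℝ => s - 1) (𝓝[>] 1) (𝓝[>] 0) := by
    refine tendsto_nhdsWithin_of_tendsto_nhds_of_eventually_within _ ?_ ?_
    · have : Tendsto (fun s : ℝ => s - 1) (𝓝 1) (𝓝 (1 - 1)) :=
        (continuous_id.sub continuous_const).tendsto 1
      simpa using this.mono_left nhdsWithin_le_nhds
    · filter_upwards [self_mem_nhdsWithin] with s hs
      simpa using hs
  have h2 : Tendsto (fun x : ℝ => 1 / x) (𝓝[>] 0) atTop := by
    simpa [one_div] using tendsto_inv_nhdsGT_zero (𝕜 := ℝ)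
  exact Real.tendsto_log_atTop.comp (h2.comp h1)

/-- a set of positive density is infinite -/
theorem HasLogDensity.infinite {A : Set (HeightOneSpectrum (𝓞 E))} {a : ℝ}
    (hA : HasLogDensity A a) (ha : 0 < a) : A.Infinite := by
  intro hfin
  obtain ⟨C, hC⟩ := hA
  -- `a log(1/(s-1)) ≤ C + card A` for all `s ∈ (1,2)`, contradiction
  have hev : ∀ᶠ s in 𝓝[>] (1 : ℝ), (C + A.ncard + 1) / a ≤ Real.log (1 / (s - 1)) :=
    log_one_div_sub_one_tendsto.eventually_ge_atTop _
  have hev2 : ∀ᶠ s in 𝓝[>] (1 : ℝ), s < 2 := by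
    have : Set.Ioo (1 : ℝ) 2 ∈ 𝓝[>] (1 : ℝ) := Ioo_mem_nhdsGT (by norm_num)
    filter_upwards [this] with s hs using hs.2
  have hev3 : ∀ᶠ s in 𝓝[>] (1 : ℝ), 1 < s := by
    filter_upwards [self_mem_nhdsWithin] with s hs using hs
  obtain ⟨s, h1, h2, h3⟩ := (hev.and (hev2.and hev3)).exists
  have h4 := hC s h3 h2
  have h5 : A.primeIdealZetaSum s ≤ A.ncard :=
    NumberField.Set.primeIdealZetaSum_le_card_of_finite hfin (by linarith)
  have h6 : C + A.ncard + 1 ≤ a * Real.log (1 / (s - 1)) := by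
    have := (div_le_iff₀' ha).mp h1
    linarith
  have h7 := abs_le.mp h4
  linarith [h7.1]

end Fermat.Agent.Cheb
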