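/-
Weak Chebotarev (item 70), piece C3c: the two Möbius facts used by the inclusion–exclusion in C3b.
(Owner: helper59.)

* `moebius_sum_divisors_eq` : `∑_{d ∣ g} μ(d) = [g = 1]`.
* `moebius_sum_filter_dvd`  : for `g ∣ n`, `n ≠ 0`: `∑_{d ∣ n, d ∣ g} μ(d) = [g = 1]` (ℤ and ℝ forms).
* `moebius_sum_div_eq_totient` : `∑_{d ∣ n} μ(d)/d = φ(n)/n` in `ℝ`.
* `moebius_sum_div_pos` : `0 < ∑_{d ∣ n} μ(d)/d` for `n ≠ 0`.
-/
import Mathlib

set_option autoImplicit false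

namespace Fermat.Agent.Cheb

open ArithmeticFunction Finset

/-- `∑_{d ∣ g} μ(d) = [g = 1]`. -/
theorem moebius_sum_divisors_eq (g : ℕ) :
    ∑ d ∈ g.divisors, ArithmeticFunction.moebius d = if g = 1 then 1 else 0 := by
  have h := congrArg (fun f : ArithmeticFunction ℤ => f g) moebius_mul_coe_zeta
  simp only [coe_mul_zeta_apply, one_apply] at h
  exact h

/-- the divisors of `n` dividing `g` are the divisors of `g`, if `g ∣ n ≠ 0` -/
theorem divisors_filter_dvd_eq {n g : ℕ} (hn : n ≠ 0) (hg : g ∣ n) :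
    n.divisors.filter (fun d => d ∣ g) = g.divisors := by
  have hg0 : g ≠ 0 := fun h => hn (by rw [h] at hg; exact Nat.eq_zero_of_zero_dvd hg)
  ext d
  simp only [mem_filter, Nat.mem_divisors]
  exact ⟨fun h => ⟨h.2, hg0⟩, fun h => ⟨⟨h.1.trans hg, hn⟩, h.1⟩⟩

/-- for `g ∣ n`: `∑_{d ∣ n, d ∣ g} μ(d) = [g = 1]` -/
theorem moebius_sum_filter_dvd {n g : ℕ} (hn : n ≠ 0) (hg : g ∣ n) :
    ∑ d ∈ n.divisors with d ∣ g, ArithmeticFunction.moebius d = if g = 1 then 1 else 0 := by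
  rw [divisors_filter_dvd_eq hn hg, moebius_sum_divisors_eq]

/-- real form, with the indicator inside the sum:
`∑_{d ∣ n} μ(d)·[d ∣ g] = [g = 1]` for `g ∣ n` -/
theorem moebius_sum_indicator_dvd {n g : ℕ} (hn : n ≠ 0) (hg : g ∣ n) :
    ∑ d ∈ n.divisors, (ArithmeticFunction.moebius d : ℝ) * (if d ∣ g then 1 else 0) =
      if g = 1 then 1 else 0 := by
  have h := moebius_sum_filter_dvd hn hg
  have h2 : ∑ d ∈ n.divisors, (ArithmeticFunction.moebius d : ℝ) * (if d ∣ g then 1 else 0) =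
      ((∑ d ∈ n.divisors with d ∣ g, ArithmeticFunction.moebius d : ℤ) : ℝ) := by
    rw [Int.cast_sum, Finset.sum_filter]
    refine Finset.sum_congr rfl fun d _ => ?_
    split_ifs <;> simp
  rw [h2, h]
  split_ifs <;> simp

/-- `∑_{d ∣ n} μ(d)·(n/d) = φ(n)` (Möbius inversion of `∑_{d ∣ n} φ(d) = n`) -/
theorem moebius_sum_mul_eq_totient {n : ℕ} (hn : 0 < n) :
    ∑ x ∈ n.divisorsAntidiagonal, (ArithmeticFunction.moebius x.1 : ℝ) * (x.2 : ℝ) =
      (n.totient : ℝ) := by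
  have key := (ArithmeticFunction.sum_eq_iff_sum_mul_moebius_eq (R := ℝ)
    (f := fun d => (d.totient : ℝ)) (g := fun d => (d : ℝ))).mp
    (fun m _ => by
      have := Nat.sum_totient m
      exact_mod_cast this)
  exact key n hn

/-- `∑_{d ∣ n} μ(d)/d = φ(n)/n` -/
theorem moebius_sum_div_eq_totient {n : ℕ} (hn : n ≠ 0) :
    ∑ d ∈ n.divisors, (ArithmeticFunction.moebius d : ℝ) / (d : ℝ) =
      (n.totient : ℝ) / (n : ℝ) := by
  have hn0 : (n : ℝ) ≠ 0 := Nat.cast_ne_zero.mpr hn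
  rw [eq_div_iff hn0, ← moebius_sum_mul_eq_totient (Nat.pos_of_ne_zero hn),
    Nat.sum_divisorsAntidiagonal (fun a b => (ArithmeticFunction.moebius a : ℝ) * (b : ℝ)),
    Finset.sum_mul]
  refine Finset.sum_congr rfl fun d hd => ?_
  have hd0 : (d : ℝ) ≠ 0 := Nat.cast_ne_zero.mpr (Nat.pos_of_mem_divisors hd).ne'
  have hdn : d ∣ n := Nat.dvd_of_mem_divisors hd
  rw [Nat.cast_div hdn hd0]
  field_simp

/-- `0 < ∑_{d ∣ n} μ(d)/d` -/
theorem moebius_sum_div_pos {n : ℕ} (hn : n ≠ 0) :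
    0 < ∑ d ∈ n.divisors, (ArithmeticFunction.moebius d : ℝ) / (d : ℝ) := by
  rw [moebius_sum_div_eq_totient hn]
  exact div_pos (Nat.cast_pos.mpr (Nat.totient_pos.mpr (Nat.pos_of_ne_zero hn)))
    (Nat.cast_pos.mpr (Nat.pos_of_ne_zero hn))

end Fermat.Agent.Cheb
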