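/-
Weak Chebotarev, piece C3b (helper58): in a cyclic extension `F/E` of number fields there is a
degree one prime of `E`, of norm outside a given finite set, with exactly one prime of `F` above it.

Inputs: C1 (`StmtPrimeSum`), C2 (`StmtSplit`), C3a (`StmtCyclicSplit`) and the two Möbius facts
of `Moebius.lean` (piece C3c).
-/
import Fermat.Agent.Cheb.Plan
import Fermat.Agent.Cheb.Density
import Fermat.Agent.Cheb.Moebius

set_option autoImplicit false

namespace Fermat.Agent.Cheb

open NumberField IsDedekindDomain Filter Topology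
open scoped ArithmeticFunction.Moebius

variable {E : Type} [Field E] [NumberField E]

/-- A finite linear combination of sets with log densities: if the indicator of `B` is the
linear combination `∑ c d • 1_{A d}`, then `B` has log density `∑ c d * δ d`. -/
theorem hasLogDensity_of_indicator_sum (hE : PrimeSummable E) (ι : Finset ℕ)
    (A : ℕ → Set (HeightOneSpectrum (𝓞 E))) (c δ : ℕ → ℝ)
    (hA : ∀ d ∈ ι, HasLogDensity (A d) (δ d)) (B : Set (HeightOneSpectrum (𝓞 E)))
    (hB : ∀ v, B.indicator (fun _ => (1 : ℝ)) v =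
      ∑ d ∈ ι, c d * (A d).indicator (fun _ => (1 : ℝ)) v) :
    HasLogDensity B (∑ d ∈ ι, c d * δ d) := by
  classical
  choose! C hC using hA
  refine ⟨∑ d ∈ ι, |c d| * C d, fun s hs hs2 => ?_⟩
  have hZ : B.primeIdealZetaSum s = ∑ d ∈ ι, c d * (A d).primeIdealZetaSum s := by
    rw [primeIdealZetaSum_eq_tsum_indicator]
    have h1 : ∀ v, B.indicator (nrm E s) v =
        ∑ d ∈ ι, c d * (A d).indicator (nrm E s) v := by
      intro v
      have h2 : B.indicator (nrm E s) v = B.indicator (fun _ => (1 : ℝ)) v * nrm E s v := by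
        by_cases hv : v ∈ B <;> simp [hv]
      rw [h2, hB v, Finset.sum_mul]
      refine Finset.sum_congr rfl fun d _ => ?_
      by_cases hv : v ∈ A d <;> simp [hv]
    rw [tsum_congr h1]
    rw [Summable.tsum_finsetSum]
    · refine Finset.sum_congr rfl fun d _ => ?_
      rw [tsum_mul_left, primeIdealZetaSum_eq_tsum_indicator]
    · intro d _
      exact (summable_indicator hE (A d) hs).mul_left (c d)
  rw [hZ]
  have e : ∑ d ∈ ι, c d * (A d).primeIdealZetaSum s - (∑ d ∈ ι, c d * δ d) * Real.log (1 / (s - 1))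
      = ∑ d ∈ ι, c d * ((A d).primeIdealZetaSum s - δ d * Real.log (1 / (s - 1))) := by
    rw [Finset.sum_mul, ← Finset.sum_sub_distrib]
    refine Finset.sum_congr rfl fun d _ => ?_
    ring
  rw [e]
  refine (Finset.abs_sum_le_sum_abs _ _).trans (Finset.sum_le_sum fun d hd => ?_)
  rw [abs_mul]
  exact mul_le_mul_of_nonneg_left (hC d hd s hs hs2) (abs_nonneg _)

/-- Only finitely many primes of `E` have their norm in a given finite set. -/
theorem finite_setOf_absNorm_mem (S : Finset ℕ) :
    {v : HeightOneSpectrum (𝓞 E) | Ideal.absNorm v.asIdeal ∈ S}.Finite := by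
  have h1 : {v : HeightOneSpectrum (𝓞 E) | Ideal.absNorm v.asIdeal ∈ S} =
      ⋃ m ∈ S, {v : HeightOneSpectrum (𝓞 E) | Ideal.absNorm v.asIdeal = m} := by
    ext v
    simp
  rw [h1]
  refine Set.Finite.biUnion S.finite_toSet fun m _ => ?_
  have h2 : {I : Ideal (𝓞 E) | Ideal.absNorm I = m}.Finite :=
    Ideal.finite_setOfPred_absNorm_eq m
  refine (h2.preimage (f := fun v : HeightOneSpectrum (𝓞 E) => v.asIdeal) ?_).subset ?_
  · intro v _ w _ h
    exact HeightOneSpectrum.ext h
  · intro v hv
    exact hv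

/-- The number of primes of `F` above a prime of `E` divides the degree (`F/E` Galois). -/
theorem ncard_primesOver_dvd_finrank (F : Type) [Field F] [NumberField F] [Algebra E F]
    [IsGalois E F] (v : HeightOneSpectrum (𝓞 E)) :
    (Ideal.primesOver v.asIdeal (𝓞 F)).ncard ∣ Module.finrank E F := by
  have h := Ideal.ncard_primesOver_mul_ramificationIdxIn_mul_inertiaDegIn v.asIdeal (𝓞 F)
    (F ≃ₐ[E] F)
  rw [IsGalois.card_aut_eq_finrank] at h
  exact Dvd.intro _ h

/-- **Piece C3b.** -/
theorem stmtCyclic (hPS : StmtPrimeSum) (hSp : StmtSplit) (hCS : StmtCyclicSplit) :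
    StmtCyclic := by
  intro E F _ _ _ _ _ _ _ S
  classical
  obtain ⟨hsum, -, hnonprime⟩ := hPS E
  have hE : PrimeSummable E := hsum
  have hn0 : Module.finrank E F ≠ 0 := Module.finrank_pos.ne'
  -- for every `d ∣ n` the set `{v | d ∣ g v}` has density `1/d`
  have hdens : ∀ d ∈ (Module.finrank E F).divisors,
      HasLogDensity {v : HeightOneSpectrum (𝓞 E) |
        d ∣ (Ideal.primesOver v.asIdeal (𝓞 F)).ncard} (1 / (d : ℝ)) := by
    intro d hd
    obtain ⟨M, _, _, _, _, hMd, hM⟩ := hCS E F d (Nat.dvd_of_mem_divisors hd)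
    have h1 := hSp E M
    rw [hMd] at h1
    have h2 : {v : HeightOneSpectrum (𝓞 E) | d ∣ (Ideal.primesOver v.asIdeal (𝓞 F)).ncard} =
        {v : HeightOneSpectrum (𝓞 E) | SplitsCompletely M v} := by
      ext v
      exact (hM v).symm
    rw [h2]
    exact h1
  -- inclusion–exclusion
  have hB : HasLogDensity
      {v : HeightOneSpectrum (𝓞 E) | (Ideal.primesOver v.asIdeal (𝓞 F)).ncard = 1}
      (∑ d ∈ (Module.finrank E F).divisors,
        (ArithmeticFunction.moebius d : ℝ) * (1 / (d : ℝ))) := by
    refine hasLogDensity_of_indicator_sum hE (Module.finrank E F).divisors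
      (fun d => {v : HeightOneSpectrum (𝓞 E) | d ∣ (Ideal.primesOver v.asIdeal (𝓞 F)).ncard})
      (fun d => (ArithmeticFunction.moebius d : ℝ)) (fun d => 1 / (d : ℝ)) hdens _ ?_
    intro v
    have h := moebius_sum_indicator_dvd hn0 (ncard_primesOver_dvd_finrank F v)
    simp only [Set.indicator_apply, Set.mem_ofPred_eq]
    exact h.symm
  have hpos : 0 < ∑ d ∈ (Module.finrank E F).divisors,
      (ArithmeticFunction.moebius d : ℝ) * (1 / (d : ℝ)) := by
    have := moebius_sum_div_pos hn0
    simpa only [mul_one_div] using this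
  have hbadS : HasLogDensity {v : HeightOneSpectrum (𝓞 E) | Ideal.absNorm v.asIdeal ∈ S} 0 :=
    hasLogDensity_zero_of_finite (finite_setOf_absNorm_mem S)
  have hT := (hB.diff_zero hE hnonprime).diff_zero hE hbadS
  obtain ⟨v, hv⟩ := (hT.infinite hpos).nonempty
  refine ⟨v, ?_, ?_, ?_⟩
  · by_contra h
    exact hv.1.2 h
  · exact hv.2
  · exact hv.1.1

end Fermat.Agent.Cheb
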