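import Fermat.Agent.Cheb.Plan

/-!
# Weak Chebotarev, piece C3a: splitting in the subfield of degree `d` of a cyclic extension
-/

set_option autoImplicit false
set_option linter.style.haveILetI false

namespace Fermat.Agent.Cheb

open NumberField IsDedekindDomain
open scoped Pointwise

namespace CyclicSplit

/-- In a finite cyclic group every subgroup is the kernel of a power map. -/
theorem eq_ker_pow {C : Type*} [CommGroup C] [IsCyclic C] [Finite C] (K : Subgroup C) :
    K = (powMonoidHom (Nat.card K) : C →* C).ker := by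
  have hle : K ≤ (powMonoidHom (Nat.card K) : C →* C).ker := by
    intro x hx
    rw [MonoidHom.mem_ker, powMonoidHom_apply]
    have h1 : (⟨x, hx⟩ : K) ^ Nat.card K = 1 := pow_card_eq_one'
    have h2 : ((⟨x, hx⟩ : K) ^ Nat.card K : C) = ((1 : K) : C) := congrArg Subtype.val h1
    rwa [Subgroup.coe_one] at h2
  refine Subgroup.eq_of_le_of_card_ge hle ?_
  rw [IsCyclic.card_powMonoidHom_ker]
  exact Nat.le_of_dvd Nat.card_pos (Nat.gcd_dvd_right _ _)

theorem card_inf {C : Type*} [CommGroup C] [IsCyclic C] [Finite C] (D H : Subgroup C) :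
    Nat.card (D ⊓ H : Subgroup C) = Nat.gcd (Nat.card D) (Nat.card H) := by
  have hD := eq_ker_pow D
  have hH := eq_ker_pow H
  have hinf : (D ⊓ H : Subgroup C) =
      (powMonoidHom (Nat.gcd (Nat.card D) (Nat.card H)) : C →* C).ker := by
    ext x
    rw [Subgroup.mem_inf, MonoidHom.mem_ker, powMonoidHom_apply]
    constructor
    · rintro ⟨h1, h2⟩
      rw [hD, MonoidHom.mem_ker, powMonoidHom_apply] at h1
      rw [hH, MonoidHom.mem_ker, powMonoidHom_apply] at h2
      exact pow_gcd_eq_one.mpr ⟨h1, h2⟩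
    · intro h
      constructor
      · rw [hD, MonoidHom.mem_ker, powMonoidHom_apply]
        obtain ⟨k, hk⟩ := Nat.gcd_dvd_left (Nat.card D) (Nat.card H)
        rw [hk, pow_mul, h, one_pow]
      · rw [hH, MonoidHom.mem_ker, powMonoidHom_apply]
        obtain ⟨k, hk⟩ := Nat.gcd_dvd_right (Nat.card D) (Nat.card H)
        rw [hk, pow_mul, h, one_pow]
  rw [hinf, IsCyclic.card_powMonoidHom_ker]
  apply Nat.gcd_eq_right
  exact (Nat.gcd_dvd_left _ _).trans (Subgroup.card_subgroup_dvd_card D)

/-- Lemma A: in a finite cyclic group, `[C : D] = gcd([C : H], [C : D]) * [H : H ⊓ D]`. -/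
theorem index_eq_gcd_mul_relIndex {C : Type*} [CommGroup C] [IsCyclic C] [Finite C]
    (D H : Subgroup C) : D.index = Nat.gcd H.index D.index * D.relIndex H := by
  have hn : 0 < Nat.card C := Nat.card_pos
  have h1 : Nat.card D * D.index = Nat.card C := D.card_mul_index
  have h2 : Nat.card H * H.index = Nat.card C := H.card_mul_index
  have h3 : Nat.card (D ⊓ H : Subgroup C) * (D ⊓ H : Subgroup C).index = Nat.card C :=
    (D ⊓ H).card_mul_index
  have h4 : D.relIndex H * H.index = (D ⊓ H : Subgroup C).index := by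
    rw [← Subgroup.inf_relIndex_right]
    exact Subgroup.relIndex_mul_index inf_le_right
  have h5 := card_inf D H
  set a := Nat.card D
  set b := Nat.card H
  set g := D.index
  set d := H.index
  set c := Nat.card (D ⊓ H : Subgroup C)
  set h := D.relIndex H
  have hb : 0 < b := Nat.card_pos
  have hd : 0 < d := Nat.pos_of_ne_zero Subgroup.index_ne_zero_of_finite
  have hc : 0 < c := Nat.card_pos
  -- `h * c = b`
  have h6 : h * c = b := by
    have : (h * c) * d = b * d := by
      rw [h2, ← h3, ← h4]; ring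
    exact Nat.eq_of_mul_eq_mul_right hd this
  -- `gcd(d,g) * b = g * c`
  have h7 : Nat.gcd d g * b = g * c := by
    rw [h5, ← Nat.gcd_mul_right, ← Nat.gcd_mul_left]
    congr 1
    rw [mul_comm, h2, mul_comm, h1]
  have h8 : (Nat.gcd d g * h) * c = g * c := by
    rw [mul_assoc, h6, h7]
  exact (Nat.eq_of_mul_eq_mul_right hc h8).symm

/-- Number of primes of the fixed field `M` of `H` above `p`, in a cyclic extension. -/
theorem ncard_primesOver_fixedField (E F : Type) [Field E] [NumberField E] [Field F] [NumberField F]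
    [Algebra E F] [IsGalois E F] [IsCyclic (F ≃ₐ[E] F)] (H : Subgroup (F ≃ₐ[E] F)) [H.Normal]
    (p : Ideal (𝓞 E)) [p.IsPrime] :
    letI M : IntermediateField E F := FixedPoints.intermediateField H
    (p.primesOver (𝓞 M)).ncard = Nat.gcd H.index (p.primesOver (𝓞 F)).ncard := by
  classical
  let M : IntermediateField E F := FixedPoints.intermediateField H
  show (p.primesOver (𝓞 M)).ncard = Nat.gcd H.index (p.primesOver (𝓞 F)).ncard
  letI : CommGroup (F ≃ₐ[E] F) := IsCyclic.commGroup
  haveI : IsGalois E M := IsGaloisGroup.isGalois ((F ≃ₐ[E] F) ⧸ H) E M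
  -- a prime of `F` above `p`
  obtain ⟨⟨Q, hQprime, hQlies⟩⟩ := (inferInstance : Nonempty (p.primesOver (𝓞 F)))
  haveI := hQprime
  haveI := hQlies
  let P : Ideal (𝓞 M) := Q.under (𝓞 M)
  haveI : P.IsPrime := inferInstance
  haveI : Q.LiesOver P := ⟨rfl⟩
  haveI : P.LiesOver p := Ideal.LiesOver.tower_bot Q P p
  -- tower
  have htower : (p.primesOver (𝓞 M)).ncard * (P.primesOver (𝓞 F)).ncard =
      (p.primesOver (𝓞 F)).ncard :=
    Ideal.ncard_primesOver_mul_ncard_primesOver P (M ≃ₐ[E] M) (𝓞 F) (F ≃ₐ[E] F)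
  haveI hGH : IsGaloisGroup H (𝓞 M) (𝓞 F) := IsGaloisGroup.of_isFractionRing H _ _ M F
  haveI : Algebra.IsInvariant (𝓞 M) (𝓞 F) H := hGH.isInvariant
  -- orbit-stabiliser
  have hg : (p.primesOver (𝓞 F)).ncard = (MulAction.stabilizer (F ≃ₐ[E] F) Q).index := by
    rw [← Algebra.IsInvariant.orbit_eq_primesOver (𝓞 E) (𝓞 F) (F ≃ₐ[E] F) p Q,
      MulAction.index_stabilizer]
  have hh : (P.primesOver (𝓞 F)).ncard = (MulAction.stabilizer (F ≃ₐ[E] F) Q).relIndex H := by
    rw [← Algebra.IsInvariant.orbit_eq_primesOver (𝓞 M) (𝓞 F) H P Q]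
    have h1 := MulAction.index_stabilizer H Q
    have h2 : MulAction.stabilizer H Q = (MulAction.stabilizer (F ≃ₐ[E] F) Q).subgroupOf H := by
      ext x
      rw [Subgroup.mem_subgroupOf, MulAction.mem_stabilizer_iff, MulAction.mem_stabilizer_iff]
      rfl
    rw [Subgroup.relIndex, ← h2, h1]
    rfl
  have hA := index_eq_gcd_mul_relIndex (MulAction.stabilizer (F ≃ₐ[E] F) Q) H
  rw [← hg, ← hh] at hA
  have hpos : 0 < (P.primesOver (𝓞 F)).ncard := by
    rw [hh, Subgroup.relIndex]
    exact Nat.pos_of_ne_zero Subgroup.index_ne_zero_of_finite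
  have : (p.primesOver (𝓞 M)).ncard * (P.primesOver (𝓞 F)).ncard =
      Nat.gcd H.index (p.primesOver (𝓞 F)).ncard * (P.primesOver (𝓞 F)).ncard := by
    rw [htower]; exact hA
  exact Nat.eq_of_mul_eq_mul_right hpos this

end CyclicSplit

open CyclicSplit in
/-- (C3a) For `d ∣ [F : E]`, `F/E` cyclic: the fixed field `M` of the subgroup of index `d` is
Galois of degree `d` over `E`, and a prime `v` of `E` splits completely in `M` iff `d` divides the
number of primes of `F` above `v`. -/
theorem stmtCyclicSplit : StmtCyclicSplit := by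
  intro E F _ _ _ _ _ _ _ d hd
  classical
  obtain ⟨σ, hσ⟩ := IsCyclic.exists_generator (α := F ≃ₐ[E] F)
  have hn : Nat.card (F ≃ₐ[E] F) = Module.finrank E F := IsGalois.card_aut_eq_finrank E F
  have hnpos : 0 < Module.finrank E F := Module.finrank_pos
  have hd0 : d ≠ 0 := by
    rintro rfl
    rw [zero_dvd_iff] at hd
    omega
  let H : Subgroup (F ≃ₐ[E] F) := Subgroup.zpowers (σ ^ d)
  haveI : H.Normal := by
    letI : CommGroup (F ≃ₐ[E] F) := IsCyclic.commGroup
    exact Subgroup.normal_of_isMulCommutative H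
  -- `|H| = n / d`, `[G : H] = d`
  have hcardH : Nat.card H = Module.finrank E F / d := by
    rw [Nat.card_zpowers, orderOf_pow, orderOf_eq_card_of_forall_mem_zpowers hσ, hn,
      Nat.gcd_eq_right hd]
  have hindex : H.index = d := by
    have h1 := H.card_mul_index
    rw [hcardH, hn] at h1
    obtain ⟨k, hk⟩ := hd
    have hkpos : 0 < k := by
      rcases Nat.eq_zero_or_pos k with h0 | h0
      · rw [h0, mul_zero] at hk; omega
      · exact h0
    rw [hk, Nat.mul_div_cancel_left _ (Nat.pos_of_ne_zero hd0)] at h1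
    have : k * H.index = k * d := by rw [h1]; ring
    exact Nat.eq_of_mul_eq_mul_left hkpos this
  let M : IntermediateField E F := FixedPoints.intermediateField H
  haveI hMgal : IsGalois E M := IsGaloisGroup.isGalois ((F ≃ₐ[E] F) ⧸ H) E M
  have hfinM : Module.finrank E M = d := by
    have h1 : Module.finrank M F = Nat.card H :=
      IsGaloisGroup.finrank_fixedPoints_eq_card_subgroup (F ≃ₐ[E] F) E F H
    have h2 : Module.finrank E M * Module.finrank M F = Module.finrank E F :=
      Module.finrank_mul_finrank E M F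
    rw [h1, hcardH] at h2
    obtain ⟨k, hk⟩ := hd
    have hkpos : 0 < k := by
      rcases Nat.eq_zero_or_pos k with h0 | h0
      · rw [h0, mul_zero] at hk; omega
      · exact h0
    rw [hk, Nat.mul_div_cancel_left _ (Nat.pos_of_ne_zero hd0)] at h2
    have : Module.finrank E M * k = d * k := h2
    exact Nat.eq_of_mul_eq_mul_right hkpos this
  refine ⟨M, inferInstance, inferInstance, inferInstance, hMgal, hfinM, ?_⟩
  intro v
  have key := ncard_primesOver_fixedField E F H v.asIdeal
  show (Ideal.primesOver v.asIdeal (𝓞 M)).ncard = Module.finrank E M ↔ _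
  rw [hfinM, key, hindex]
  exact Nat.gcd_eq_left_iff_dvd

end Fermat.Agent.Cheb
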