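/-
Weak Chebotarev, piece C1b, part 2 (helper26): finite linear combinations of densities
(for the Möbius / inclusion–exclusion step of C3).
-/
import Fermat.Agent.Cheb.Density

set_option autoImplicit false

namespace Fermat.Agent.Cheb

open NumberField IsDedekindDomain Filter Topology

variable {E : Type} [Field E] [NumberField E]

/-- If the indicator function of `A` is a finite linear combination of the indicator functions of
the sets `B i`, then the prime sum of `A` is the same linear combination of the prime sums. -/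
theorem primeIdealZetaSum_linear_comb (hE : PrimeSummable E) {ι : Type*} (T : Finset ι)
    (c : ι → ℝ) (B : ι → Set (HeightOneSpectrum (𝓞 E))) (A : Set (HeightOneSpectrum (𝓞 E)))
    (h : ∀ v, A.indicator (fun _ => (1 : ℝ)) v =
      ∑ i ∈ T, c i * (B i).indicator (fun _ => (1 : ℝ)) v)
    {s : ℝ} (hs : 1 < s) :
    A.primeIdealZetaSum s = ∑ i ∈ T, c i * (B i).primeIdealZetaSum s := by
  have hind : ∀ (X : Set (HeightOneSpectrum (𝓞 E))) (v : HeightOneSpectrum (𝓞 E)),
      X.indicator (nrm E s) v = X.indicator (fun _ => (1 : ℝ)) v * nrm E s v := by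
    intro X v
    by_cases hv : v ∈ X
    · simp [Set.indicator_of_mem hv]
    · simp [Set.indicator_of_notMem hv]
  have hpt : ∀ v, A.indicator (nrm E s) v = ∑ i ∈ T, c i * (B i).indicator (nrm E s) v := by
    intro v
    rw [hind A v, h v, Finset.sum_mul]
    refine Finset.sum_congr rfl (fun i _ => ?_)
    rw [hind (B i) v]
    ring
  rw [primeIdealZetaSum_eq_tsum_indicator]
  simp_rw [primeIdealZetaSum_eq_tsum_indicator]
  rw [tsum_congr hpt]
  have hsm : ∀ i ∈ T, Summable fun v => c i * (B i).indicator (nrm E s) v :=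
    fun i _ => (summable_indicator hE (B i) hs).mul_left (c i)
  rw [Summable.tsum_finsetSum hsm]
  refine Finset.sum_congr rfl (fun i _ => ?_)
  rw [tsum_mul_left]

/-- Densities of finite linear combinations of indicator functions. -/
theorem HasLogDensity.linear_comb (hE : PrimeSummable E) {ι : Type*} (T : Finset ι)
    (c δ : ι → ℝ) (B : ι → Set (HeightOneSpectrum (𝓞 E))) (A : Set (HeightOneSpectrum (𝓞 E)))
    (h : ∀ v, A.indicator (fun _ => (1 : ℝ)) v =
      ∑ i ∈ T, c i * (B i).indicator (fun _ => (1 : ℝ)) v)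
    (hB : ∀ i ∈ T, HasLogDensity (B i) (δ i)) :
    HasLogDensity A (∑ i ∈ T, c i * δ i) := by
  choose! C hC using hB
  refine ⟨∑ i ∈ T, |c i| * C i, fun s hs hs2 => ?_⟩
  rw [primeIdealZetaSum_linear_comb hE T c B A h hs, Finset.sum_mul, ← Finset.sum_sub_distrib]
  refine (Finset.abs_sum_le_sum_abs _ _).trans (Finset.sum_le_sum (fun i hi => ?_))
  have e : c i * (B i).primeIdealZetaSum s - c i * δ i * Real.log (1 / (s - 1)) =
      c i * ((B i).primeIdealZetaSum s - δ i * Real.log (1 / (s - 1))) := by ring
  rw [e, abs_mul]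
  exact mul_le_mul_of_nonneg_left (hC i hi s hs hs2) (abs_nonneg _)

end Fermat.Agent.Cheb
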