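import Mathlib
import Fermat.Prelude.Def_EllipticCurve_FrobeniusTrace
import Fermat.Prelude.Def_FLTPrelim_Ramification
import Fermat.Agent.Common.FrobExists
import Fermat.Agent.Cheb.Plan

/-!
# Weak Chebotarev, piece C4: from a finite level to `ℚ̄`

Let `F ⊆ ℚ̄` be a finite Galois extension of `ℚ`, `𝔓` a prime of `𝓞 F` over the rational prime
`ℓ` at which `F/ℚ` is unramified, and `φ ∈ Gal(F/ℚ)` an arithmetic Frobenius at `𝔓`.
Then there are a valuation subring `A` of `ℚ̄` over `ℓ` and a Frobenius element `τ` at `A`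
(in the sense of the prelude) whose restriction to `F` is `φ`.
-/

set_option autoImplicit false

open NumberField

namespace Fermat.Agent.Cheb

section General

variable {K L : Type*} [Field K] [Field L] [Algebra K L]

/-- A Frobenius element at `A` acts as `x ↦ x ^ q` modulo the maximal ideal of `A`. -/
theorem sub_pow_mem_nonunits_of_isFrobeniusAt (A : ValuationSubring L) (σ : L ≃ₐ[K] L) (q : ℕ)
    (h : A.IsFrobeniusAt σ q) (x : L) (hx : x ∈ A) : σ x - x ^ q ∈ A.nonunits := by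
  obtain ⟨hσ, hres⟩ := h
  have h1 := hres (IsLocalRing.residue A ⟨x, hx⟩)
  rw [← IsLocalRing.ResidueField.residue_smul, ← map_pow, ← sub_eq_zero, ← map_sub,
    IsLocalRing.residue_eq_zero_iff, ← ValuationSubring.coe_mem_nonunits_iff] at h1
  exact h1

end General

section Qbar

variable (F : IntermediateField ℚ (AlgebraicClosure ℚ))

/-- The embedding of the ring of integers of `F ⊆ ℚ̄` into `ℚ̄`. -/
noncomputable def intEmb : 𝓞 F →+* AlgebraicClosure ℚ :=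
  (algebraMap F (AlgebraicClosure ℚ)).comp (algebraMap (𝓞 F) F)

theorem intEmb_apply (x : 𝓞 F) : intEmb F x = ((x : F) : AlgebraicClosure ℚ) := rfl

theorem intEmb_injective : Function.Injective (intEmb F) := by
  intro x y h
  have h1 : ((x : F) : AlgebraicClosure ℚ) = ((y : F) : AlgebraicClosure ℚ) := h
  exact RingOfIntegers.ext (Subtype.ext h1)

/-- Every valuation subring of `ℚ̄` contains the integers of `F`. -/
theorem intEmb_mem (A : ValuationSubring (AlgebraicClosure ℚ)) (x : 𝓞 F) : intEmb F x ∈ A := by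
  have hx : IsIntegral ℤ (intEmb F x) := by
    have h1 : IsIntegral ℤ x := RingOfIntegers.isIntegral x
    exact h1.map ((intEmb F).toIntAlgHom)
  have hint : IsIntegral A (intEmb F x) := hx.tower_top
  obtain ⟨y, hy⟩ := (IsIntegrallyClosed.isIntegral_iff (R := A) (K := AlgebraicClosure ℚ)).mp hint
  exact hy ▸ y.2

/-- A valuation subring of `ℚ̄` whose maximal ideal contains a given proper ideal of `𝓞 F`. -/
theorem exists_valuationSubring_of_ideal (𝔓 : Ideal (𝓞 F)) (h𝔓 : 𝔓 ≠ ⊤) :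
    ∃ A : ValuationSubring (AlgebraicClosure ℚ), ∀ x ∈ 𝔓, intEmb F x ∈ A.nonunits := by
  let R : Subring (AlgebraicClosure ℚ) := (intEmb F).range
  let e : 𝓞 F →+* R := (intEmb F).rangeRestrict
  have he : Function.Bijective e :=
    ⟨fun a b hab => intEmb_injective F (congrArg (fun t : R => (t : AlgebraicClosure ℚ)) hab),
      (intEmb F).rangeRestrict_surjective⟩
  have hI : Ideal.map e 𝔓 ≠ ⊤ := by
    intro htop
    apply h𝔓
    have := Ideal.comap_map_of_bijective e he (I := 𝔓)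
    rw [htop, Ideal.comap_top] at this
    exact this.symm
  obtain ⟨B, -, hB⟩ := Ideal.image_subset_nonunits_valuationSubring (Ideal.map e 𝔓) hI
  exact ⟨B, fun x hx => hB ⟨e x, Ideal.mem_map_of_mem e hx, rfl⟩⟩

/-- If the maximal ideal of `A` contains the maximal ideal `𝔓` of `𝓞 F`, then it meets `𝓞 F`
exactly in `𝔓`. -/
theorem mem_of_intEmb_mem_nonunits (A : ValuationSubring (AlgebraicClosure ℚ))
    (𝔓 : Ideal (𝓞 F)) (h𝔓 : 𝔓.IsMaximal) (hA : ∀ x ∈ 𝔓, intEmb F x ∈ A.nonunits)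
    (y : 𝓞 F) (hy : intEmb F y ∈ A.nonunits) : y ∈ 𝔓 := by
  by_contra hy𝔓
  obtain ⟨b, i, hi, hbi⟩ := h𝔓.exists_inv hy𝔓
  have h1 : intEmb F b * intEmb F y + intEmb F i = 1 := by
    rw [← map_mul, ← map_add, hbi, map_one]
  have h2 : intEmb F b * intEmb F y + intEmb F i ∈ A.nonunits :=
    A.nonunits.add_mem
      (Fermat.Agent.Common.frobGlue_mul_mem_nonunits A (intEmb_mem F A b) hy) (hA i hi)
  rw [h1] at h2
  exact Fermat.Agent.Common.one_not_mem_nonunits A h2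

/-- The prime of `ℤ` under a prime of `𝓞 F` containing `ℓ` has residue field of size `ℓ`. -/
theorem card_quot_under (ℓ : ℕ) (hℓ : ℓ.Prime) (𝔓 : Ideal (𝓞 F)) [𝔓.IsPrime]
    (hℓ𝔓 : (ℓ : 𝓞 F) ∈ 𝔓) : Nat.card (ℤ ⧸ 𝔓.under ℤ) = ℓ := by
  have h1 : 𝔓.under ℤ = Ideal.span {(ℓ : ℤ)} := by
    have hmax : (Ideal.span {(ℓ : ℤ)}).IsMaximal :=
      (Ideal.span_singleton_prime (by exact_mod_cast hℓ.ne_zero)).mpr
        (Nat.prime_iff_prime_int.mp hℓ) |>.isMaximal (by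
          simpa using hℓ.ne_zero)
    have hle : Ideal.span {(ℓ : ℤ)} ≤ 𝔓.under ℤ := by
      rw [Ideal.span_singleton_le_iff_mem, Ideal.under_def, Ideal.mem_comap]
      simpa using hℓ𝔓
    have hne : 𝔓.under ℤ ≠ ⊤ := (Ideal.IsPrime.under ℤ 𝔓).ne_top
    exact (hmax.eq_of_le hne hle).symm
  rw [h1]
  rw [Nat.card_congr (Int.quotientSpanNatEquivZMod ℓ).toEquiv, Nat.card_zmod]

end Qbar

section Main

variable (F : IntermediateField ℚ (AlgebraicClosure ℚ)) [IsGalois ℚ F]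

/-- The restriction to `F` of a Frobenius element at `A` is an arithmetic Frobenius at the prime
of `𝓞 F` below `A`. -/
theorem restrictNormal_isArithFrobAt (A : ValuationSubring (AlgebraicClosure ℚ))
    (ℓ : ℕ) (hℓ : ℓ.Prime) (𝔓 : Ideal (𝓞 F)) [𝔓.IsPrime] (h𝔓 : 𝔓.IsMaximal)
    (hℓ𝔓 : (ℓ : 𝓞 F) ∈ 𝔓) (hA : ∀ x ∈ 𝔓, intEmb F x ∈ A.nonunits)
    (τ : AlgebraicClosure ℚ ≃ₐ[ℚ] AlgebraicClosure ℚ) (hτ : A.IsFrobeniusAt τ ℓ) :
    IsArithFrobAt ℤ (τ.restrictNormal F) 𝔓 := by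
  intro x
  rw [card_quot_under F ℓ hℓ 𝔓 hℓ𝔓]
  apply mem_of_intEmb_mem_nonunits F A 𝔓 h𝔓 hA
  have h1 : intEmb F ((MulSemiringAction.toAlgHom ℤ (𝓞 F) (τ.restrictNormal F)) x - x ^ ℓ) =
      τ (intEmb F x) - (intEmb F x) ^ ℓ := by
    rw [map_sub, map_pow]
    congr 1
    exact AlgEquiv.restrictNormal_commutes τ F (x : F)
  rw [h1]
  exact sub_pow_mem_nonunits_of_isFrobeniusAt A τ ℓ hτ _ (intEmb_mem F A x)

omit [IsGalois ℚ F] in
/-- An element of `Gal(F/ℚ)` is determined by its action on `𝓞 F`. -/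
theorem algEquiv_eq_of_toAlgHom_eq [NumberField F] (φ ψ : F ≃ₐ[ℚ] F)
    (h : MulSemiringAction.toAlgHom ℤ (𝓞 F) φ = MulSemiringAction.toAlgHom ℤ (𝓞 F) ψ) :
    φ = ψ := by
  ext x
  obtain ⟨a, b, hb, rfl⟩ := IsFractionRing.div_surjective (A := 𝓞 F) x
  have ha' : φ (a : F) = ψ (a : F) := by
    have := congrArg (fun f => ((f a : 𝓞 F) : F)) h
    exact this
  have hb' : φ (b : F) = ψ (b : F) := by
    have := congrArg (fun f => ((f b : 𝓞 F) : F)) h
    exact this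
  rw [map_div₀, map_div₀, ha', hb']

/-- **Piece C4.** A finite-level arithmetic Frobenius at an unramified prime is the restriction
of a Frobenius element of `Gal(ℚ̄/ℚ)` at some valuation subring of `ℚ̄`. -/
theorem exists_isFrobeniusAt_of_isArithFrobAt [FiniteDimensional ℚ F]
    (ℓ : ℕ) (hℓ : ℓ.Prime) (𝔓 : Ideal (𝓞 F)) [𝔓.IsPrime] (hℓ𝔓 : (ℓ : 𝓞 F) ∈ 𝔓)
    [Algebra.IsUnramifiedAt ℤ 𝔓] (φ : F ≃ₐ[ℚ] F) (hφ : IsArithFrobAt ℤ φ 𝔓) :
    ∃ (A : ValuationSubring (AlgebraicClosure ℚ))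
      (τ : AlgebraicClosure ℚ ≃ₐ[ℚ] AlgebraicClosure ℚ),
      A.LiesOverPrime ℓ ∧ A.IsFrobeniusAt τ ℓ ∧ τ.restrictNormal F = φ ∧
      ∀ x ∈ 𝔓, intEmb F x ∈ A.nonunits := by
  have : NumberField F := ⟨⟩
  have hne : 𝔓 ≠ ⊥ := by
    intro h
    rw [h, Ideal.mem_bot] at hℓ𝔓
    exact hℓ.ne_zero (by exact_mod_cast hℓ𝔓)
  have hmax : 𝔓.IsMaximal := Ideal.IsPrime.isMaximal inferInstance hne
  obtain ⟨A, hA⟩ := exists_valuationSubring_of_ideal F 𝔓 (Ideal.IsPrime.ne_top inferInstance)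
  have hlies : A.LiesOverPrime ℓ := by
    have := hA _ hℓ𝔓
    rwa [map_natCast] at this
  obtain ⟨τ, hτ⟩ := Fermat.Agent.Common.exists_isFrobeniusAt_of_liesOverPrime ℓ hℓ A hlies
  refine ⟨A, τ, hlies, hτ, ?_, hA⟩
  have h1 := restrictNormal_isArithFrobAt F A ℓ hℓ 𝔓 hmax hℓ𝔓 hA τ hτ
  have h2 := AlgHom.IsArithFrobAt.eq_of_isUnramifiedAt h1 hφ
    (by
      intro x hx
      rw [mem_nonZeroDivisors_iff_ne_zero]
      rintro rfl
      exact hx (Ideal.zero_mem _))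
  exact algEquiv_eq_of_toAlgHom_eq F _ _ h2

/-- **Piece C4** in the form of `Plan.lean`. -/
theorem stmtGlue : StmtGlue := by
  intro F _ _ P _ ℓ hℓ hℓP hunr φ hφ
  have : FiniteDimensional ℚ F := NumberField.to_finiteDimensional
  obtain ⟨A, τ, hA, hτ, hτφ, -⟩ := exists_isFrobeniusAt_of_isArithFrobAt F ℓ hℓ P hℓP φ hφ
  refine ⟨A, τ, hA, hτ, fun x => ?_⟩
  have h := AlgEquiv.restrictNormal_commutes τ F x
  rw [hτφ] at h
  exact h.symm

/-- The finite-level form of weak Chebotarev for `F/ℚ`: every element of `Gal(F/ℚ)` is a power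
of an arithmetic Frobenius at a prime of `𝓞 F` over a rational prime outside any given finite
set. (No unramifiedness is asked: the finite set can absorb the ramified primes.) -/
def FiniteLevelCheb : Prop :=
  ∀ (S : Finset ℕ) (g : F ≃ₐ[ℚ] F),
    ∃ (ℓ : ℕ) (𝔓 : Ideal (𝓞 F)) (φ : F ≃ₐ[ℚ] F) (m : ℕ),
      ℓ.Prime ∧ ℓ ∉ S ∧ 𝔓.IsPrime ∧ (ℓ : 𝓞 F) ∈ 𝔓 ∧ IsArithFrobAt ℤ φ 𝔓 ∧ φ ^ m = g

/-- **Weak Chebotarev from its finite-level form** (the statement consumed by `S42`/`S29`):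
every `σ ∈ Gal(ℚ̄/ℚ)` agrees on `F` with a power of a Frobenius element at a prime outside `S`. -/
theorem weakCheb_of_finiteLevel [FiniteDimensional ℚ F] (h : FiniteLevelCheb F)
    (S : Finset ℕ) (σ : AlgebraicClosure ℚ ≃ₐ[ℚ] AlgebraicClosure ℚ) :
    ∃ (ℓ : ℕ) (A : ValuationSubring (AlgebraicClosure ℚ))
      (τ : AlgebraicClosure ℚ ≃ₐ[ℚ] AlgebraicClosure ℚ) (m : ℕ),
      ℓ.Prime ∧ ℓ ∉ S ∧ A.LiesOverPrime ℓ ∧ A.IsFrobeniusAt τ ℓ ∧
        ∀ x : AlgebraicClosure ℚ, x ∈ F → (τ ^ m) x = σ x := by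
  have : NumberField F := ⟨⟩
  obtain ⟨ℓ, 𝔓, φ, m, hℓ, hℓS, h𝔓, hℓ𝔓, hφ, hm⟩ :=
    h (S ∪ (NumberField.discr F).natAbs.primeFactors) (σ.restrictNormal F)
  have hℓS' : ℓ ∉ S := fun hmem => hℓS (Finset.mem_union_left _ hmem)
  have hdisc : ¬ ((ℓ : ℤ) ∣ NumberField.discr F) := by
    intro hdvd
    apply hℓS
    refine Finset.mem_union_right _ ?_
    rw [Nat.mem_primeFactors]
    refine ⟨hℓ, ?_, ?_⟩
    · exact Int.natCast_dvd.mp hdvd
    · simpa using NumberField.discr_ne_zero F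
  have hunr : Algebra.IsUnramifiedAt ℤ 𝔓 :=
    (NumberField.not_dvd_discr_iff_forall_mem F (𝓞 F) (Nat.prime_iff_prime_int.mp hℓ)).mp hdisc
      𝔓 h𝔓 (by simpa using hℓ𝔓)
  obtain ⟨A, τ, hA, hτ, hτφ, -⟩ := exists_isFrobeniusAt_of_isArithFrobAt F ℓ hℓ 𝔓 hℓ𝔓 φ hφ
  refine ⟨ℓ, A, τ, m, hℓ, hℓS', hA, hτ, fun x hx => ?_⟩
  have h1 : (τ ^ m).restrictNormal F = σ.restrictNormal F := by
    have h2 : (τ ^ m).restrictNormal F = (τ.restrictNormal F) ^ m :=
      map_pow (AlgEquiv.restrictNormalHom F) τ m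
    rw [h2, hτφ, hm]
  have h3 := AlgEquiv.restrictNormal_commutes (τ ^ m) F ⟨x, hx⟩
  have h4 := AlgEquiv.restrictNormal_commutes σ F ⟨x, hx⟩
  rw [h1] at h3
  exact h3.symm.trans h4

end Main

end Fermat.Agent.Cheb
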