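/-
Weak Chebotarev, piece C1 core (helper26): from the Euler product inputs (`EulerInput`, provided by
`Fermat/Agent/S14/Euler.lean`, helper60) deduce the three parts of `StmtPrimeSum` for one field.
-/
import Fermat.Agent.Cheb.Density

set_option autoImplicit false

namespace Fermat.Agent.Cheb

open NumberField IsDedekindDomain Filter Topology

/-- The inputs from the Euler product file (statements E1a, E1c, E1d, E3z, E4 of helper60's note). -/
structure EulerInput (E : Type) [Field E] [NumberField E] : Prop where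
  summable : ∀ s : ℝ, 1 < s →
    Summable fun I : nonZeroDivisors (Ideal (𝓞 E)) ↦ (Ideal.absNorm (I : Ideal (𝓞 E)) : ℝ) ^ (-s)
  zeta_le : ∃ C : ℝ, 0 < C ∧ ∀ s : ℝ, 1 < s → s ≤ 2 →
    ∑' I : nonZeroDivisors (Ideal (𝓞 E)), (Ideal.absNorm (I : Ideal (𝓞 E)) : ℝ) ^ (-s) ≤ C / (s - 1)
  le_zeta : ∃ c : ℝ, 0 < c ∧ ∀ s : ℝ, 1 < s → s ≤ 2 →
    c / (s - 1) ≤ ∑' I : nonZeroDivisors (Ideal (𝓞 E)), (Ideal.absNorm (I : Ideal (𝓞 E)) : ℝ) ^ (-s)
  hasProd : ∀ s : ℝ, 1 < s →
    HasProd (fun v : HeightOneSpectrum (𝓞 E) ↦ (1 - (Ideal.absNorm v.asIdeal : ℝ) ^ (-s))⁻¹)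
      (∑' I : nonZeroDivisors (Ideal (𝓞 E)), (Ideal.absNorm (I : Ideal (𝓞 E)) : ℝ) ^ (-s))
  not_prime : ∃ C : ℝ, ∀ s : ℝ, 1 ≤ s → ∀ F : Finset (HeightOneSpectrum (𝓞 E)),
    (∀ v ∈ F, ¬ (Ideal.absNorm v.asIdeal).Prime) →
      ∑ v ∈ F, (Ideal.absNorm v.asIdeal : ℝ) ^ (-s) ≤ C

variable {E : Type} [Field E] [NumberField E]

/-- a prime as a nonzero ideal -/
noncomputable def primeToIdeal (v : HeightOneSpectrum (𝓞 E)) : nonZeroDivisors (Ideal (𝓞 E)) :=
  ⟨v.asIdeal, mem_nonZeroDivisors_of_ne_zero v.ne_bot⟩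

omit [NumberField E] in
theorem primeToIdeal_injective : Function.Injective (primeToIdeal (E := E)) := by
  intro v w h
  have : v.asIdeal = w.asIdeal := congrArg Subtype.val h
  exact HeightOneSpectrum.ext this

theorem primeSummable_of_eulerInput (h : EulerInput E) : PrimeSummable E := by
  intro s hs
  have h1 := (h.summable s hs).comp_injective (primeToIdeal_injective (E := E))
  refine h1.congr (fun v => ?_)
  simp only [Function.comp_apply, nrm, primeToIdeal]

theorem two_le_absNorm' (v : HeightOneSpectrum (𝓞 E)) : 2 ≤ Ideal.absNorm v.asIdeal := by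
  have h1 := one_le_absNorm v
  have h2 : Ideal.absNorm v.asIdeal ≠ 1 := by
    rw [Ne, Ideal.absNorm_eq_one_iff]
    exact v.isPrime.ne_top
  omega

theorem nrm_pos (s : ℝ) (v : HeightOneSpectrum (𝓞 E)) : 0 < nrm E s v := by
  unfold nrm
  apply Real.rpow_pos_of_pos
  exact_mod_cast (one_le_absNorm v)

theorem nrm_le_half {s : ℝ} (hs : 1 ≤ s) (v : HeightOneSpectrum (𝓞 E)) : nrm E s v ≤ 1 / 2 := by
  unfold nrm
  have h2 : (2 : ℝ) ≤ (Ideal.absNorm v.asIdeal : ℝ) := by exact_mod_cast two_le_absNorm' v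
  have h0 : (0 : ℝ) < (Ideal.absNorm v.asIdeal : ℝ) := by linarith
  rw [Real.rpow_neg h0.le]
  have h3 : (Ideal.absNorm v.asIdeal : ℝ) ^ (1 : ℝ) ≤ (Ideal.absNorm v.asIdeal : ℝ) ^ s :=
    Real.rpow_le_rpow_of_exponent_le (by linarith) hs
  rw [Real.rpow_one] at h3
  have h4 : (2 : ℝ) ≤ (Ideal.absNorm v.asIdeal : ℝ) ^ s := h2.trans h3
  rw [one_div]
  exact inv_anti₀ (by norm_num) h4

/-- `Nv^{-s} ≤ Nv^{-t}` for `t ≤ s` -/
theorem nrm_anti {s t : ℝ} (hts : t ≤ s) (v : HeightOneSpectrum (𝓞 E)) : nrm E s v ≤ nrm E t v := by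
  unfold nrm
  apply Real.rpow_le_rpow_of_exponent_le
  · exact_mod_cast one_le_absNorm v
  · linarith

theorem nrm_sq (s : ℝ) (v : HeightOneSpectrum (𝓞 E)) : nrm E s v ^ 2 = nrm E (2 * s) v := by
  unfold nrm
  have h0 : (0 : ℝ) ≤ (Ideal.absNorm v.asIdeal : ℝ) := by positivity
  rw [← Real.rpow_natCast, ← Real.rpow_mul h0]
  congr 1
  push_cast
  ring

/-- elementary bounds for `-log (1 - x)` -/
theorem neg_log_one_sub_bounds {x : ℝ} (_hx0 : 0 ≤ x) (hx : x ≤ 1 / 2) :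
    x ≤ Real.log ((1 - x)⁻¹) ∧ Real.log ((1 - x)⁻¹) ≤ x + 2 * x ^ 2 := by
  have h1 : 0 < 1 - x := by linarith
  constructor
  · rw [Real.log_inv]
    have := Real.log_le_sub_one_of_pos h1
    linarith
  · have h2 : 0 < (1 - x)⁻¹ := inv_pos.mpr h1
    have h3 := Real.log_le_sub_one_of_pos h2
    have h4 : (1 - x)⁻¹ - 1 ≤ x + 2 * x ^ 2 := by
      rw [inv_eq_one_div, div_sub_one h1.ne', div_le_iff₀ h1]
      nlinarith [sq_nonneg x, mul_nonneg _hx0 (sq_nonneg x)]
    linarith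

/-- log of the Euler product -/
theorem hasSum_log_of_eulerInput (h : EulerInput E) {s : ℝ} (hs : 1 < s) :
    HasSum (fun v : HeightOneSpectrum (𝓞 E) ↦ Real.log ((1 - nrm E s v)⁻¹))
      (Real.log (∑' I : nonZeroDivisors (Ideal (𝓞 E)),
        (Ideal.absNorm (I : Ideal (𝓞 E)) : ℝ) ^ (-s))) := by
  have hP := h.hasProd s hs
  obtain ⟨c, hc, hcz⟩ := h.le_zeta
  set Z : ℝ := ∑' I : nonZeroDivisors (Ideal (𝓞 E)),
        (Ideal.absNorm (I : Ideal (𝓞 E)) : ℝ) ^ (-s) with hZ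
  -- positivity of `Z` (through the bound at `min s 2`); simpler: partial products are `≥ 1`
  have hZpos : 0 < Z := by
    have h1 : (1 : ℝ) ≤ Z := by
      refine ge_of_tendsto' hP (fun T => ?_)
      refine Finset.prod_induction _ (fun x : ℝ => 1 ≤ x)
        (fun a b ha hb => one_le_mul_of_one_le_of_one_le ha hb) le_rfl (fun v _ => ?_)
      have hx0 := nrm_pos s v
      have hx1 := nrm_le_half hs.le v
      have : 0 < 1 - nrm E s v := by linarith
      change 1 ≤ (1 - nrm E s v)⁻¹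
      rw [one_le_inv₀ this]
      linarith
    linarith
  have hcont : Tendsto Real.log (𝓝 Z) (𝓝 (Real.log Z)) :=
    (Real.continuousAt_log hZpos.ne').tendsto
  have := hcont.comp hP
  refine this.congr (fun T => ?_)
  simp only [Function.comp]
  rw [Real.log_prod]
  · rfl
  · intro v _
    have hx1 := nrm_le_half hs.le v
    have : 0 < 1 - nrm E s v := by linarith
    exact (inv_pos.mpr this).ne'

/-- the key two-sided estimate: `P(s) ≤ log ζ(s) ≤ P(s) + 2 P(2)` -/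
theorem primeSum_bounds (h : EulerInput E) {s : ℝ} (hs : 1 < s) :
    (∑' v, nrm E s v) ≤ Real.log (∑' I : nonZeroDivisors (Ideal (𝓞 E)),
        (Ideal.absNorm (I : Ideal (𝓞 E)) : ℝ) ^ (-s)) ∧
    Real.log (∑' I : nonZeroDivisors (Ideal (𝓞 E)),
        (Ideal.absNorm (I : Ideal (𝓞 E)) : ℝ) ^ (-s)) ≤
      (∑' v, nrm E s v) + 2 * ∑' v, nrm E 2 v := by
  have hE := primeSummable_of_eulerInput h
  have hlog := hasSum_log_of_eulerInput h hs
  have hsum := hE s hs
  have hsum2 := hE 2 (by norm_num)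
  have hb : ∀ v, nrm E s v ≤ Real.log ((1 - nrm E s v)⁻¹) ∧
      Real.log ((1 - nrm E s v)⁻¹) ≤ nrm E s v + 2 * nrm E 2 v := by
    intro v
    have := neg_log_one_sub_bounds (nrm_nonneg s v) (nrm_le_half hs.le v)
    refine ⟨this.1, this.2.trans ?_⟩
    have h1 : nrm E s v ^ 2 ≤ nrm E 2 v := by
      rw [nrm_sq]
      exact nrm_anti (by linarith) v
    linarith
  constructor
  · rw [← hlog.tsum_eq]
    exact hsum.tsum_le_tsum (fun v => (hb v).1) hlog.summable
  · rw [← hlog.tsum_eq]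
    have hs3 : Summable fun v => nrm E s v + 2 * nrm E 2 v := hsum.add (hsum2.mul_left 2)
    calc (∑' v, Real.log ((1 - nrm E s v)⁻¹)) ≤ ∑' v, (nrm E s v + 2 * nrm E 2 v) :=
          hlog.summable.tsum_le_tsum (fun v => (hb v).2) hs3
      _ = (∑' v, nrm E s v) + 2 * ∑' v, nrm E 2 v := by
          rw [hsum.tsum_add (hsum2.mul_left 2), tsum_mul_left]

theorem primeIdealZetaSum_univ (s : ℝ) :
    (Set.univ : Set (HeightOneSpectrum (𝓞 E))).primeIdealZetaSum s = ∑' v, nrm E s v := by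
  rw [primeIdealZetaSum_eq_tsum_indicator, Set.indicator_univ]

/-- (C1, second part) -/
theorem hasLogDensity_univ_of_eulerInput (h : EulerInput E) :
    HasLogDensity (Set.univ : Set (HeightOneSpectrum (𝓞 E))) 1 := by
  obtain ⟨C, hC, hCz⟩ := h.zeta_le
  obtain ⟨c, hc, hcz⟩ := h.le_zeta
  refine ⟨|Real.log C| + |Real.log c| + 2 * ∑' v, nrm E 2 v, fun s hs hs2 => ?_⟩
  have hb := primeSum_bounds h hs
  have h1 := hCz s hs hs2.le
  have h2 := hcz s hs hs2.le
  have hs0 : 0 < s - 1 := by linarith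
  set Z : ℝ := ∑' I : nonZeroDivisors (Ideal (𝓞 E)),
        (Ideal.absNorm (I : Ideal (𝓞 E)) : ℝ) ^ (-s) with hZ
  have hZpos : 0 < Z := lt_of_lt_of_le (div_pos hc hs0) h2
  have hl1 : Real.log Z ≤ Real.log C + Real.log (1 / (s - 1)) := by
    have := Real.log_le_log hZpos h1
    rwa [div_eq_mul_one_div, Real.log_mul hC.ne' (one_div_pos.mpr hs0).ne'] at this
  have hl2 : Real.log c + Real.log (1 / (s - 1)) ≤ Real.log Z := by
    have := Real.log_le_log (div_pos hc hs0) h2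
    rwa [div_eq_mul_one_div, Real.log_mul hc.ne' (one_div_pos.mpr hs0).ne'] at this
  have hB : 0 ≤ ∑' v, nrm E 2 v := tsum_nonneg (fun v => nrm_nonneg 2 v)
  rw [primeIdealZetaSum_univ, one_mul, abs_le]
  have a1 := neg_abs_le (Real.log C)
  have a2 := le_abs_self (Real.log C)
  have a3 := neg_abs_le (Real.log c)
  have a4 := le_abs_self (Real.log c)
  have a5 := abs_nonneg (Real.log C)
  have a6 := abs_nonneg (Real.log c)
  constructor
  · linarith [hb.2]
  · linarith [hb.1]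

/-- (C1, third part) -/
theorem hasLogDensity_not_prime_of_eulerInput (h : EulerInput E) :
    HasLogDensity {v : HeightOneSpectrum (𝓞 E) | ¬ (Ideal.absNorm v.asIdeal).Prime} 0 := by
  obtain ⟨C, hC⟩ := h.not_prime
  refine ⟨C, fun s hs _ => ?_⟩
  simp only [zero_mul, sub_zero]
  rw [abs_of_nonneg (NumberField.Set.primeIdealZetaSum_nonneg _ s),
    NumberField.Set.primeIdealZetaSum_def]
  have hE := primeSummable_of_eulerInput h
  have hsum : Summable fun v : {v : HeightOneSpectrum (𝓞 E) | ¬ (Ideal.absNorm v.asIdeal).Prime} ↦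
      ((Ideal.absNorm v.1.asIdeal : ℝ) ^ (-s)) := (hE s hs).subtype _
  refine hsum.tsum_le_of_sum_le (fun T => ?_)
  have := hC s hs.le (T.map (Function.Embedding.subtype _)) (by
    intro v hv
    rw [Finset.mem_map] at hv
    obtain ⟨w, _, rfl⟩ := hv
    exact w.2)
  rw [Finset.sum_map] at this
  exact this

/-- all three parts of `StmtPrimeSum` for the field `E` -/
theorem stmtPrimeSum_of_eulerInput (h : EulerInput E) :
    (∀ s : ℝ, 1 < s →
      Summable fun v : HeightOneSpectrum (𝓞 E) ↦ (Ideal.absNorm v.asIdeal : ℝ) ^ (-s)) ∧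
    HasLogDensity (Set.univ : Set (HeightOneSpectrum (𝓞 E))) 1 ∧
    HasLogDensity {v : HeightOneSpectrum (𝓞 E) | ¬ (Ideal.absNorm v.asIdeal).Prime} 0 :=
  ⟨primeSummable_of_eulerInput h, hasLogDensity_univ_of_eulerInput h,
    hasLogDensity_not_prime_of_eulerInput h⟩

end Fermat.Agent.Cheb
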