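/-
Weak Chebotarev, piece C1 (helper26): `stmtPrimeSum : StmtPrimeSum`.
Instantiates `PrimeSumCore.lean` with the Euler product files `Fermat/Agent/S14/Euler.lean` (helper60)
and `Fermat/Agent/S14/EulerAux.lean` (helper70).
-/
import Fermat.Agent.Cheb.PrimeSumCore
import Fermat.Agent.S14.Euler
import Fermat.Agent.S14.EulerAux

set_option autoImplicit false

namespace Fermat.Agent.Cheb

open NumberField IsDedekindDomain

theorem eulerInput (E : Type) [Field E] [NumberField E] : EulerInput E where
  summable := fun _ hs => Fermat.Agent.S14.summable_absNorm_rpow E hs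
  zeta_le := Fermat.Agent.S14.exists_zeta_le_of E
    (fun _ hs => Fermat.Agent.S14.summable_absNorm_rpow E hs)
    (fun _ hs => Fermat.Agent.S14.tsum_absNorm_rpow_eq_dedekindZeta E hs)
  le_zeta := Fermat.Agent.S14.exists_le_zeta_of E
    (fun _ hs => Fermat.Agent.S14.summable_absNorm_rpow E hs)
    (fun _ hs => Fermat.Agent.S14.tsum_absNorm_rpow_eq_dedekindZeta E hs)
  hasProd := fun _ hs => Fermat.Agent.S14.hasProd_zeta E hs
  not_prime := Fermat.Agent.S14.exists_sum_not_prime_le E

/-- (C1) -/
theorem stmtPrimeSum : StmtPrimeSum := fun E _ _ =>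
  stmtPrimeSum_of_eulerInput (eulerInput E)

end Fermat.Agent.Cheb
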