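/-
Weak Chebotarev (item 70), piece C2 (helper88): the primes of `E` splitting completely in a Galois
extension `F/E` of degree `d` have logarithmic density `1/d`, given the prime ideal sums (C1).
-/
import Fermat.Agent.Cheb.Plan

set_option autoImplicit false
set_option linter.unusedSectionVars false

open NumberField IsDedekindDomain
open scoped Pointwise

namespace Fermat.Agent.Cheb

attribute [local instance] FractionRing.liftAlgebra

section alg

variable (E F : Type) [Field E] [NumberField E] [Field F] [NumberField F] [Algebra E F]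

/-- The prime of `E` below a prime of `F`. -/
noncomputable abbrev c2Under (w : HeightOneSpectrum (𝓞 F)) : HeightOneSpectrum (𝓞 E) :=
  HeightOneSpectrum.under (𝓞 E) w

instance c2_liesOver (w : HeightOneSpectrum (𝓞 F)) :
    w.asIdeal.LiesOver (c2Under E F w).asIdeal := ⟨rfl⟩

theorem c2_absNorm (w : HeightOneSpectrum (𝓞 F)) :
    Ideal.absNorm (c2Under E F w).asIdeal ^ w.asIdeal.inertiaDeg (𝓞 E) =
      Ideal.absNorm w.asIdeal :=
  Ideal.absNorm_pow_inertiaDeg (c2Under E F w).asIdeal w.asIdeal

/-- The fibre of `c2Under` over `v` is in bijection with the primes over `v`. -/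
theorem c2_fiber_ncard (v : HeightOneSpectrum (𝓞 E)) :
    Nat.card {w : HeightOneSpectrum (𝓞 F) // c2Under E F w = v} =
      (Ideal.primesOver v.asIdeal (𝓞 F)).ncard := by
  rw [← Nat.card_coe_set_eq]
  refine Nat.card_congr (Equiv.ofBijective
    (fun w => ⟨w.1.asIdeal, w.1.isPrime, ⟨(congrArg HeightOneSpectrum.asIdeal w.2).symm⟩⟩) ⟨?_, ?_⟩)
  · intro w1 w2 h
    have : w1.1.asIdeal = w2.1.asIdeal := congrArg Subtype.val h
    exact Subtype.ext (HeightOneSpectrum.ext this)
  · rintro ⟨P, hP, hPv⟩
    have hPne : P ≠ ⊥ := by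
      intro h
      subst h
      have := hPv.over
      apply v.ne_bot
      rw [this]
      exact Ideal.under_bot (𝓞 E) (𝓞 F)
    refine ⟨⟨⟨P, hP, hPne⟩, HeightOneSpectrum.ext ?_⟩, rfl⟩
    exact hPv.over.symm

variable [IsGalois E F]

theorem c2_fund (w : HeightOneSpectrum (𝓞 F)) :
    (Ideal.primesOver (c2Under E F w).asIdeal (𝓞 F)).ncard *
      (w.asIdeal.ramificationIdx (𝓞 E) * w.asIdeal.inertiaDeg (𝓞 E)) = Module.finrank E F := by
  have h := Ideal.ncard_primesOver_mul_ramificationIdxIn_mul_inertiaDegIn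
    (c2Under E F w).asIdeal (𝓞 F) (F ≃ₐ[E] F)
  rw [Ideal.ramificationIdxIn_eq_ramificationIdx (c2Under E F w).asIdeal w.asIdeal (F ≃ₐ[E] F),
    Ideal.inertiaDegIn_eq_inertiaDeg (c2Under E F w).asIdeal w.asIdeal (F ≃ₐ[E] F),
    IsGaloisGroup.card_eq_finrank (F ≃ₐ[E] F) E F] at h
  exact h

theorem c2_absNorm_eq_of_split (w : HeightOneSpectrum (𝓞 F))
    (h : SplitsCompletely F (c2Under E F w)) :
    Ideal.absNorm w.asIdeal = Ideal.absNorm (c2Under E F w).asIdeal := by
  have h1 := c2_fund E F w
  rw [SplitsCompletely] at h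
  rw [h] at h1
  have hd : 0 < Module.finrank E F := Module.finrank_pos
  have h2 : w.asIdeal.ramificationIdx (𝓞 E) * w.asIdeal.inertiaDeg (𝓞 E) = 1 := by
    have : Module.finrank E F * (w.asIdeal.ramificationIdx (𝓞 E) * w.asIdeal.inertiaDeg (𝓞 E))
        = Module.finrank E F * 1 := by rw [h1, mul_one]
    exact Nat.eq_of_mul_eq_mul_left hd this
  have h3 : w.asIdeal.inertiaDeg (𝓞 E) = 1 := Nat.eq_one_of_mul_eq_one_left h2
  have := c2_absNorm E F w
  rw [h3, pow_one] at this
  exact this.symm

theorem c2_not_prime_of_not_split (w : HeightOneSpectrum (𝓞 F))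
    (h : ¬ SplitsCompletely F (c2Under E F w))
    (hur : ¬ w.asIdeal ∣ differentIdeal (𝓞 E) (𝓞 F)) :
    ¬ (Ideal.absNorm w.asIdeal).Prime := by
  have hun : Algebra.IsUnramifiedAt (𝓞 E) w.asIdeal := not_dvd_differentIdeal_iff.mp hur
  have he : w.asIdeal.ramificationIdx (𝓞 E) = 1 := Ideal.ramificationIdx_eq_one _ _
  have h1 := c2_fund E F w
  rw [he, one_mul] at h1
  rw [SplitsCompletely] at h
  have hf : w.asIdeal.inertiaDeg (𝓞 E) ≠ 1 := by
    intro hf
    rw [hf, mul_one] at h1
    exact h h1
  rw [← c2_absNorm E F w]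
  exact Nat.Prime.not_prime_pow' hf

end alg


section analytic

variable (E F : Type) [Field E] [NumberField E] [Field F] [NumberField F] [Algebra E F]
  [IsGalois E F]

theorem c2_finite_ramified :
    {w : HeightOneSpectrum (𝓞 F) | w.asIdeal ∣ differentIdeal (𝓞 E) (𝓞 F)}.Finite :=
  Ideal.finite_factors (differentIdeal_ne_bot)

/-- Summing over the primes of `F` above completely split primes of `E`. -/
theorem c2_tsum_fiber (s : ℝ)
    (hsum : Summable fun w : HeightOneSpectrum (𝓞 F) => (Ideal.absNorm w.asIdeal : ℝ) ^ (-s)) :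
    ∑' w : HeightOneSpectrum (𝓞 F),
        Set.indicator {w | SplitsCompletely F (c2Under E F w)}
          (fun w => (Ideal.absNorm w.asIdeal : ℝ) ^ (-s)) w
      = (Module.finrank E F : ℝ) * ∑' v : HeightOneSpectrum (𝓞 E),
        Set.indicator {v | SplitsCompletely F v}
          (fun v => (Ideal.absNorm v.asIdeal : ℝ) ^ (-s)) v := by
  classical
  set B : Set (HeightOneSpectrum (𝓞 F)) := {w | SplitsCompletely F (c2Under E F w)} with hB
  set A : Set (HeightOneSpectrum (𝓞 E)) := {v | SplitsCompletely F v} with hA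
  set f : HeightOneSpectrum (𝓞 F) → ℝ := fun w => (Ideal.absNorm w.asIdeal : ℝ) ^ (-s) with hf
  set g : HeightOneSpectrum (𝓞 E) → ℝ := fun v => (Ideal.absNorm v.asIdeal : ℝ) ^ (-s) with hg
  have hBsum : Summable (B.indicator f) := hsum.indicator B
  have h1 := hBsum.hasSum.tsum_fiberwise (c2Under E F)
  have h2 : ∀ v : HeightOneSpectrum (𝓞 E),
      ∑' b : ↥((c2Under E F) ⁻¹' {v}), B.indicator f b.1
        = (Module.finrank E F : ℝ) * A.indicator g v := by
    intro v
    by_cases hv : v ∈ A
    · have hb : ∀ b : ↥((c2Under E F) ⁻¹' {v}), B.indicator f b.1 = g v := by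
        intro b
        have hbv : c2Under E F b.1 = v := b.2
        have hbB : b.1 ∈ B := by
          show SplitsCompletely F (c2Under E F b.1)
          rw [hbv]; exact hv
        rw [Set.indicator_of_mem hbB]
        show (Ideal.absNorm b.1.asIdeal : ℝ) ^ (-s) = (Ideal.absNorm v.asIdeal : ℝ) ^ (-s)
        rw [c2_absNorm_eq_of_split E F b.1 hbB, hbv]
      simp_rw [hb]
      rw [tsum_const, Set.indicator_of_mem hv]
      have hcard : Nat.card ↥((c2Under E F) ⁻¹' {v}) = Module.finrank E F := by
        have := c2_fiber_ncard E F v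
        rw [show (Ideal.primesOver v.asIdeal (𝓞 F)).ncard = Module.finrank E F from hv] at this
        exact this
      rw [hcard, nsmul_eq_mul]
    · have hb : ∀ b : ↥((c2Under E F) ⁻¹' {v}), B.indicator f b.1 = 0 := by
        intro b
        have hbv : c2Under E F b.1 = v := b.2
        have hbB : b.1 ∉ B := by
          show ¬ SplitsCompletely F (c2Under E F b.1)
          rw [hbv]; exact hv
        exact Set.indicator_of_notMem hbB f
      simp_rw [hb]
      rw [tsum_zero, Set.indicator_of_notMem hv, mul_zero]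
  simp_rw [h2] at h1
  rw [← h1.tsum_eq, tsum_mul_left]

end analytic

/-- **(C2)** the primes splitting completely in a Galois extension of degree `d` have
logarithmic density `1/d`. -/
theorem stmtSplit (hPS : StmtPrimeSum) : StmtSplit := by
  classical
  intro E F _ _ _ _ _ _
  obtain ⟨hsumF, ⟨C1, hC1⟩, ⟨C0, hC0⟩⟩ := hPS F
  have hd : (0 : ℝ) < (Module.finrank E F : ℝ) := by exact_mod_cast Module.finrank_pos
  have hRfin := c2_finite_ramified E F
  set R : Set (HeightOneSpectrum (𝓞 F)) :=
    {w | w.asIdeal ∣ differentIdeal (𝓞 E) (𝓞 F)} with hRdef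
  refine ⟨(C1 + C0 + R.ncard) / (Module.finrank E F : ℝ), fun s hs1 hs2 => ?_⟩
  have hsum := hsumF s hs1
  set f : HeightOneSpectrum (𝓞 F) → ℝ := fun w => (Ideal.absNorm w.asIdeal : ℝ) ^ (-s) with hf
  set g : HeightOneSpectrum (𝓞 E) → ℝ := fun v => (Ideal.absNorm v.asIdeal : ℝ) ^ (-s) with hg
  have hfnn : ∀ w, 0 ≤ f w := fun w => by positivity
  set B : Set (HeightOneSpectrum (𝓞 F)) := {w | SplitsCompletely F (c2Under E F w)} with hB
  set A : Set (HeightOneSpectrum (𝓞 E)) := {v | SplitsCompletely F v} with hA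
  set NP : Set (HeightOneSpectrum (𝓞 F)) := {w | ¬ (Ideal.absNorm w.asIdeal).Prime} with hNP
  set L : ℝ := Real.log (1 / (s - 1)) with hL
  -- the three zeta sums as sums of indicators
  have hZF : (Set.univ : Set (HeightOneSpectrum (𝓞 F))).primeIdealZetaSum s = ∑' w, f w := by
    rw [NumberField.Set.primeIdealZetaSum_def]
    exact tsum_univ f
  have hZNP : NP.primeIdealZetaSum s = ∑' w, NP.indicator f w := by
    rw [NumberField.Set.primeIdealZetaSum_def]
    exact tsum_subtype NP f
  have hZA : A.primeIdealZetaSum s = ∑' v, A.indicator g v := by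
    rw [NumberField.Set.primeIdealZetaSum_def]
    exact tsum_subtype A g
  have hZR : ∑' w, R.indicator f w ≤ R.ncard := by
    have := NumberField.Set.primeIdealZetaSum_le_card_of_finite hRfin (s := s) (by linarith)
    rw [NumberField.Set.primeIdealZetaSum_def] at this
    rwa [← tsum_subtype R f]
  -- splitting
  have hsplit : ∑' w, f w = ∑' w, B.indicator f w + ∑' w, Bᶜ.indicator f w := by
    rw [← Summable.tsum_add (hsum.indicator B) (hsum.indicator Bᶜ)]
    congr 1
    funext w
    exact (Set.indicator_self_add_compl_apply B f w).symm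
  have hBc0 : 0 ≤ ∑' w, Bᶜ.indicator f w :=
    tsum_nonneg fun w => Set.indicator_nonneg (fun w _ => hfnn w) w
  have hBc : ∑' w, Bᶜ.indicator f w ≤ ∑' w, NP.indicator f w + ∑' w, R.indicator f w := by
    rw [← Summable.tsum_add (hsum.indicator NP) (hsum.indicator R)]
    refine Summable.tsum_le_tsum (fun w => ?_) (hsum.indicator Bᶜ)
      ((hsum.indicator NP).add (hsum.indicator R))
    by_cases hw : w ∈ Bᶜ
    · rw [Set.indicator_of_mem hw]
      by_cases hwR : w ∈ R
      · rw [Set.indicator_of_mem hwR]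
        have := Set.indicator_nonneg (s := NP) (fun w _ => hfnn w) w
        linarith
      · have hwNP : w ∈ NP := c2_not_prime_of_not_split E F w hw hwR
        rw [Set.indicator_of_mem hwNP]
        have := Set.indicator_nonneg (s := R) (fun w _ => hfnn w) w
        linarith
    · rw [Set.indicator_of_notMem hw]
      have h1 := Set.indicator_nonneg (s := R) (fun w _ => hfnn w) w
      have h2 := Set.indicator_nonneg (s := NP) (fun w _ => hfnn w) w
      linarith
  have key := c2_tsum_fiber E F s hsum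
  have h1 := hC1 s hs1 hs2
  have h0 := hC0 s hs1 hs2
  rw [hZF] at h1
  rw [hZNP, zero_mul, sub_zero] at h0
  rw [hZA]
  -- combine
  set ZA : ℝ := ∑' v, A.indicator g v with hZAdef
  set ZB : ℝ := ∑' w, B.indicator f w with hZBdef
  set ZBc : ℝ := ∑' w, Bᶜ.indicator f w with hZBcdef
  set ZNP : ℝ := ∑' w, NP.indicator f w with hZNPdef
  set ZR : ℝ := ∑' w, R.indicator f w with hZRdef
  set d : ℝ := (Module.finrank E F : ℝ) with hddef
  have hmain : |d * ZA - L| ≤ C1 + C0 + R.ncard := by
    rw [← key]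
    have hZB : ZB = ∑' w, f w - ZBc := by linarith
    rw [hZB]
    have hNPle : ZNP ≤ C0 := le_trans (le_abs_self _) h0
    rw [abs_le] at h1 ⊢
    constructor <;> linarith [h1.1, h1.2]
  have : ZA - 1 / d * L = (d * ZA - L) / d := by
    field_simp
  rw [this, abs_div, abs_of_pos hd]
  exact div_le_div_of_nonneg_right hmain hd.le

end Fermat.Agent.Cheb
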