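/-
Weak Chebotarev, piece C6 (helper41): at an unramified prime `P` of `𝓞 F` (`F/ℚ` finite Galois) every
element of the stabiliser of `P` is a power of a Frobenius element at `P`.
-/
import Fermat.Agent.Cheb.Plan

set_option autoImplicit false
set_option linter.style.haveILetI false

namespace Fermat.Agent.Cheb

open NumberField IsDedekindDomain
open scoped Pointwise

section general

variable {R S G : Type*} [CommRing R] [CommRing S] [Algebra R S] [Group G]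
  [MulSemiringAction G S] [SMulCommClass G R S]

/-- Powers of a Frobenius element act on the residue ring as iterated `q`-th powers. -/
theorem stab_frob_pow_sub_mem {Q : Ideal S} [Q.IsPrime] {φ : G} (hφ : IsArithFrobAt R φ Q)
    (m : ℕ) (x : S) : (φ ^ m) • x - x ^ (Nat.card (R ⧸ Q.under R) ^ m) ∈ Q := by
  induction m generalizing x with
  | zero => simp
  | succ m ih =>
    have h1 : (φ ^ (m + 1)) • x = (φ ^ m) • (φ • x) := by
      rw [pow_succ, mul_smul]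
    have h2 : φ • x - x ^ Nat.card (R ⧸ Q.under R) ∈ Q := by
      simpa using hφ x
    -- `(φ^m) • (φ • x) ≡ (φ • x)^(q^m) ≡ (x^q)^(q^m)`
    have h3 := ih (φ • x)
    have h4 : (φ • x) ^ (Nat.card (R ⧸ Q.under R) ^ m) -
        (x ^ Nat.card (R ⧸ Q.under R)) ^ (Nat.card (R ⧸ Q.under R) ^ m) ∈ Q :=
      Ideal.mem_of_dvd _ (sub_dvd_pow_sub_pow _ _ _) h2
    have h5 : (x ^ Nat.card (R ⧸ Q.under R)) ^ (Nat.card (R ⧸ Q.under R) ^ m) =
        x ^ (Nat.card (R ⧸ Q.under R) ^ (m + 1)) := by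
      rw [← pow_mul, pow_succ']
    rw [h1, ← h5]
    have := Q.add_mem h3 h4
    simpa using this

end general

attribute [local instance] Ideal.Quotient.field in
theorem stmtStab : StmtStab := by
  intro F _ _ _ P _ hP0 hunr σ hσ
  let p : Ideal ℤ := P.under ℤ
  haveI hLO : P.LiesOver p := ⟨rfl⟩
  haveI hpprime : p.IsPrime := inferInstance
  haveI : Finite (𝓞 F ⧸ P) := Ideal.finiteQuotientOfFreeOfNeBot P hP0
  have hp0 : p ≠ ⊥ := Ideal.under_ne_bot ℤ hP0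
  haveI hpmax : p.IsMaximal := hpprime.isMaximal hp0
  haveI hPmax : P.IsMaximal := Ideal.IsPrime.isMaximal inferInstance hP0
  haveI : Finite (ℤ ⧸ p) := Ideal.finiteQuotientOfFreeOfNeBot p hp0
  obtain ⟨φ, hφ⟩ := IsArithFrobAt.exists_of_isInvariant ℤ (F ≃ₐ[ℚ] F) P
  -- inertia is trivial
  have hI : Ideal.inertia (F ≃ₐ[ℚ] F) P = ⊥ := by
    have h1 : Nat.card (Ideal.inertia (F ≃ₐ[ℚ] F) P) = 1 := by
      rw [Ideal.card_inertia_eq_ramificationIdxIn p P,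
        Ideal.ramificationIdxIn_eq_ramificationIdx p P (F ≃ₐ[ℚ] F)]
      exact Ideal.ramificationIdx_eq_one_of_isUnramifiedAt
    exact Subgroup.card_eq_one.mp h1
  -- the action of `σ` on the residue field is a power of the Frobenius automorphism
  let σs : MulAction.stabilizer (F ≃ₐ[ℚ] F) P := ⟨σ, hσ⟩
  letI : Fintype (ℤ ⧸ p) := Fintype.ofFinite _
  obtain ⟨n, hn⟩ := (FiniteField.bijective_frobeniusAlgEquivOfAlgebraic_pow (ℤ ⧸ p) (𝓞 F ⧸ P)).2
    (Ideal.Quotient.stabilizerHom P p (F ≃ₐ[ℚ] F) σs)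
  refine ⟨φ, n, hφ, ?_⟩
  have h2 : ∀ x : 𝓞 F, σ • x - x ^ (Nat.card (ℤ ⧸ p) ^ (n : ℕ)) ∈ P := by
    intro x
    have h := congrArg (fun f : (𝓞 F ⧸ P) ≃ₐ[ℤ ⧸ p] (𝓞 F ⧸ P) => f (Ideal.Quotient.mk P x)) hn
    simp only [AlgEquiv.coe_pow, FiniteField.coe_frobeniusAlgEquivOfAlgebraic_iterate,
      Ideal.Quotient.stabilizerHom_apply] at h
    rw [← Ideal.Quotient.eq, map_pow, Nat.card_eq_fintype_card]
    exact h.symm
  have key : ∀ x : 𝓞 F, (φ ^ (n : ℕ)) • x - σ • x ∈ P := by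
    intro x
    have h1 := stab_frob_pow_sub_mem (R := ℤ) hφ n x
    have h3 := P.sub_mem h1 (h2 x)
    have h4 : (φ ^ (n : ℕ)) • x - x ^ (Nat.card (ℤ ⧸ P.under ℤ) ^ (n : ℕ)) -
        (σ • x - x ^ (Nat.card (ℤ ⧸ p) ^ (n : ℕ))) = (φ ^ (n : ℕ)) • x - σ • x := by
      show (φ ^ (n : ℕ)) • x - x ^ (Nat.card (ℤ ⧸ p) ^ (n : ℕ)) -
        (σ • x - x ^ (Nat.card (ℤ ⧸ p) ^ (n : ℕ))) = (φ ^ (n : ℕ)) • x - σ • x
      ring
    rw [h4] at h3
    exact h3
  have hmem : σ⁻¹ * φ ^ (n : ℕ) ∈ Ideal.inertia (F ≃ₐ[ℚ] F) P := by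
    intro x
    have hσinv : σ⁻¹ • P = P := by
      rw [inv_smul_eq_iff, hσ]
    have h3 : σ⁻¹ • ((φ ^ (n : ℕ)) • x - σ • x) ∈ σ⁻¹ • P :=
      Ideal.smul_mem_pointwise_smul _ _ _ (key x)
    rw [hσinv] at h3
    simpa [mul_smul, smul_sub] using h3
  rw [hI, Subgroup.mem_bot] at hmem
  exact (inv_mul_eq_one.mp hmem)

end Fermat.Agent.Cheb
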