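/-
Weak Chebotarev (item 70): the final theorem, assembled from the pieces C1–C6.
-/
import Fermat.Agent.Cheb.PrimeSum
import Fermat.Agent.Cheb.Split
import Fermat.Agent.Cheb.CyclicSplit
import Fermat.Agent.Cheb.Cyclic
import Fermat.Agent.Cheb.Stab
import Fermat.Agent.Cheb.Glue
import Fermat.Agent.Cheb.Assembly

set_option autoImplicit false

namespace Fermat.Agent.Cheb

/-- **Weak Chebotarev**: for `F/ℚ` finite Galois inside `ℚ̄`, a finite set `S` of primes and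
`σ ∈ G_ℚ` there are a prime `ℓ ∉ S`, a valuation subring `A` of `ℚ̄` over `ℓ`, a Frobenius `τ` at `A`
and `m : ℕ` with `(τ ^ m)|F = σ|F`. -/
theorem weakChebotarev_holds : WeakChebotarev :=
  weakChebotarev (stmtCyclic stmtPrimeSum (stmtSplit stmtPrimeSum) stmtCyclicSplit)
    stmtStab stmtGlue

/-- Unfolded form of `weakChebotarev_holds`. -/
theorem exists_frobenius_pow_eq (F : IntermediateField ℚ (AlgebraicClosure ℚ))
    [FiniteDimensional ℚ F] [IsGalois ℚ F] (S : Finset ℕ)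
    (σ : AlgebraicClosure ℚ ≃ₐ[ℚ] AlgebraicClosure ℚ) :
    ∃ (ℓ : ℕ) (A : ValuationSubring (AlgebraicClosure ℚ))
      (τ : AlgebraicClosure ℚ ≃ₐ[ℚ] AlgebraicClosure ℚ) (m : ℕ),
      ℓ.Prime ∧ ℓ ∉ S ∧ A.LiesOverPrime ℓ ∧ A.IsFrobeniusAt τ ℓ ∧
        ∀ x ∈ F, (τ ^ m) x = σ x :=
  weakChebotarev_holds F S σ

end Fermat.Agent.Cheb
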