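/-
Weak Chebotarev, GENERATOR form (helper26): for `F/ℚ` finite Galois inside `ℚ̄`, a finite set `S` of
primes and `σ ∈ G_ℚ` there are a prime `ℓ ∉ S` and a Frobenius `τ` at a place over `ℓ` such that
`τ|F` and `σ|F` generate the SAME cyclic subgroup of `Gal(F/ℚ)`:
`(τ ^ m)|F = σ|F` and `(σ ^ k)|F = τ|F`.

This is what is needed whenever the wanted property of `Frob_ℓ` only depends on the cyclic group it
generates (`ℓ ≡ 1 mod N`, distinct eigenvalues, non-vanishing of a restriction map, ...), e.g.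
for Taylor–Wiles primes.

Proof: as in `Assembly.lean`, with `E` the fixed field of `⟨σ|F⟩`, `v` a degree one prime of `E`
with a unique prime `P` of `F` above it, `P` unramified over `ℚ`.  A Frobenius `ψ` of `F/E` at `P`
is also a Frobenius of `F/ℚ` at `P` (the residue field of `v` is `𝔽_ℓ`), and the Frobenius at an
unramified prime is unique, so every Frobenius of `F/ℚ` at `P` lies in `Gal(F/E) = ⟨σ|F⟩`.
-/
import Fermat.Agent.Cheb.Final

set_option autoImplicit false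
set_option linter.style.haveILetI false

namespace Fermat.Agent.Cheb

open NumberField IsDedekindDomain
open scoped Pointwise

/-- The action of `Gal(F/E)` on `𝓞 F` is the restriction of the action of `Gal(F/ℚ)`. -/
lemma Strong.restrictScalars_smul {F : Type} [Field F] [NumberField F]
    (E : IntermediateField ℚ F) (ψ : F ≃ₐ[E] F) (x : 𝓞 F) :
    (ψ.restrictScalars ℚ) • x = ψ • x := by
  apply RingOfIntegers.ext
  rfl

/-- At an unramified prime `P` of `F/ℚ` lying over a degree one prime of the subfield `E`, every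
Frobenius element of `F/ℚ` at `P` fixes `E`. -/
theorem Strong.frob_mem_fixingSubgroup {F : Type} [Field F] [NumberField F] [IsGalois ℚ F]
    (E : IntermediateField ℚ F) [NumberField E] (P : Ideal (𝓞 F)) [P.IsPrime] (hP0 : P ≠ ⊥)
    (hunr : Algebra.IsUnramifiedAt ℤ P)
    (hdeg : Nat.card (𝓞 E ⧸ P.under (𝓞 E)) = Nat.card (ℤ ⧸ P.under ℤ))
    (φ : F ≃ₐ[ℚ] F) (hφ : IsArithFrobAt ℤ φ P) : φ ∈ E.fixingSubgroup := by
  let p : Ideal ℤ := P.under ℤ
  haveI hLO : P.LiesOver p := ⟨rfl⟩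
  haveI hpprime : p.IsPrime := inferInstance
  haveI : Finite (𝓞 F ⧸ P) := Ideal.finiteQuotientOfFreeOfNeBot P hP0
  have hp0 : p ≠ ⊥ := Ideal.under_ne_bot ℤ hP0
  haveI hpmax : p.IsMaximal := hpprime.isMaximal hp0
  haveI : Finite (ℤ ⧸ p) := Ideal.finiteQuotientOfFreeOfNeBot p hp0
  -- inertia is trivial
  have hI : Ideal.inertia (F ≃ₐ[ℚ] F) P = ⊥ := by
    have h1 : Nat.card (Ideal.inertia (F ≃ₐ[ℚ] F) P) = 1 := by
      rw [Ideal.card_inertia_eq_ramificationIdxIn p P,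
        Ideal.ramificationIdxIn_eq_ramificationIdx p P (F ≃ₐ[ℚ] F)]
      exact Ideal.ramificationIdx_eq_one_of_isUnramifiedAt
    exact Subgroup.card_eq_one.mp h1
  -- a Frobenius of `F/E` at `P`
  obtain ⟨ψ, hψ⟩ := IsArithFrobAt.exists_of_isInvariant (𝓞 E) (F ≃ₐ[E] F) P
  have hψ' : IsArithFrobAt ℤ (ψ.restrictScalars ℚ) P := by
    intro x
    have h := hψ x
    rw [hdeg] at h
    have e : (MulSemiringAction.toAlgHom ℤ (𝓞 F) (ψ.restrictScalars ℚ)) x =
        (MulSemiringAction.toAlgHom (𝓞 E) (𝓞 F) ψ) x :=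
      Strong.restrictScalars_smul E ψ x
    rw [e]
    exact h
  have hmem := IsArithFrobAt.mul_inv_mem_inertia hφ hψ'
  rw [hI, Subgroup.mem_bot] at hmem
  have hφψ : φ = ψ.restrictScalars ℚ := mul_inv_eq_one.mp hmem
  intro x
  rw [hφψ]
  exact ψ.commutes x

/-- `Nat.card (ℤ ⧸ P.under ℤ) = ℓ` when the prime number `ℓ` lies in the prime ideal `P`. -/
lemma Strong.card_under_int {F : Type} [Field F] [NumberField F] (P : Ideal (𝓞 F)) [P.IsPrime]
    (ℓ : ℕ) (hℓ : ℓ.Prime) (hℓP : (ℓ : 𝓞 F) ∈ P) : Nat.card (ℤ ⧸ P.under ℤ) = ℓ := by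
  have hmem : (ℓ : ℤ) ∈ P.under ℤ := by
    rw [Ideal.under_def, Ideal.mem_comap]
    simpa using hℓP
  have hle : Ideal.span {(ℓ : ℤ)} ≤ P.under ℤ := by
    rw [Ideal.span_le]
    intro x hx
    rw [Set.mem_singleton_iff] at hx
    rw [hx]
    exact hmem
  haveI : Fact ℓ.Prime := ⟨hℓ⟩
  haveI : (Ideal.span {(ℓ : ℤ)}).IsMaximal := Int.ideal_span_isMaximal_of_prime ℓ
  have hne : P.under ℤ ≠ ⊤ := Ideal.IsPrime.ne_top inferInstance
  have heq : Ideal.span {(ℓ : ℤ)} = P.under ℤ :=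
    Ideal.IsMaximal.eq_of_le inferInstance hne hle
  rw [← heq, Nat.card_congr (Int.quotientSpanNatEquivZMod ℓ).toEquiv, Nat.card_zmod]

/-- The generator form of weak Chebotarev. -/
def WeakChebotarevGen : Prop :=
  ∀ (F : IntermediateField ℚ (AlgebraicClosure ℚ)) [FiniteDimensional ℚ F] [IsGalois ℚ F]
    (S : Finset ℕ) (σ : AlgebraicClosure ℚ ≃ₐ[ℚ] AlgebraicClosure ℚ),
    ∃ (ℓ : ℕ) (A : ValuationSubring (AlgebraicClosure ℚ))
      (τ : AlgebraicClosure ℚ ≃ₐ[ℚ] AlgebraicClosure ℚ) (m k : ℕ),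
      ℓ.Prime ∧ ℓ ∉ S ∧ A.LiesOverPrime ℓ ∧ A.IsFrobeniusAt τ ℓ ∧
        (∀ x ∈ F, (τ ^ m) x = σ x) ∧ (∀ x ∈ F, (σ ^ k) x = τ x)

theorem weakChebotarevGen (hC : StmtCyclic) (hS : StmtStab) (hG : StmtGlue) :
    WeakChebotarevGen := by
  intro F _ _ S σ
  haveI : NumberField F :=
    { to_charZero := inferInstance, to_finiteDimensional := inferInstance }
  let σF : F ≃ₐ[ℚ] F := AlgEquiv.restrictNormal σ F
  have hσF : ∀ x : F, ((σF x : F) : AlgebraicClosure ℚ) = σ x := fun x =>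
    AlgEquiv.restrictNormal_commutes σ F x
  let H : Subgroup (F ≃ₐ[ℚ] F) := Subgroup.zpowers σF
  let E : IntermediateField ℚ F := IntermediateField.fixedField H
  haveI : NumberField E :=
    { to_charZero := inferInstance, to_finiteDimensional := inferInstance }
  have hfix : E.fixingSubgroup = H := IntermediateField.fixingSubgroup_fixedField H
  haveI : IsCyclic H := inferInstance
  haveI : IsCyclic E.fixingSubgroup := hfix ▸ ‹IsCyclic H›
  haveI : IsCyclic (F ≃ₐ[E] F) :=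
    isCyclic_of_surjective (IntermediateField.fixingSubgroupEquiv E)
      (IntermediateField.fixingSubgroupEquiv E).surjective
  obtain ⟨T, hT⟩ := C5.exists_finset_discr F
  obtain ⟨v, hvp, hvS, hv1⟩ := hC E F (S ∪ T)
  obtain ⟨P, hP⟩ := Set.ncard_eq_one.mp hv1
  have hPmem : P ∈ Ideal.primesOver v.asIdeal (𝓞 F) := by rw [hP]; exact Set.mem_singleton P
  haveI : P.IsPrime := hPmem.1
  have hPv : P.LiesOver v.asIdeal := hPmem.2
  have hPbot : P ≠ ⊥ := Ideal.ne_bot_of_mem_primesOver v.ne_bot hPmem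
  have hℓP : ((Ideal.absNorm v.asIdeal : ℕ) : 𝓞 F) ∈ P := by
    have h1 : ((Ideal.absNorm v.asIdeal : ℕ) : 𝓞 E) ∈ v.asIdeal := Ideal.absNorm_mem v.asIdeal
    have h2 := (Ideal.mem_of_liesOver P v.asIdeal _).mp h1
    rwa [map_natCast] at h2
  have hnd : ¬ ((Ideal.absNorm v.asIdeal : ℕ) : ℤ) ∣ discr F := fun h =>
    hvS (Finset.mem_union_right _ (hT _ hvp h))
  have hunr : Algebra.IsUnramifiedAt ℤ P :=
    (not_dvd_discr_iff_forall_mem F (𝓞 F) (Nat.prime_iff_prime_int.mp hvp)).mp hnd P inferInstance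
      (by rw [Int.cast_natCast]; exact hℓP)
  have hσmem : σF⁻¹ ∈ E.fixingSubgroup := by
    rw [hfix]
    exact Subgroup.inv_mem _ (Subgroup.mem_zpowers σF)
  have hstab : σF • P = P := by
    have := C5.smul_mem_primesOver E σF (fun x => hσmem x) v.asIdeal P hPmem
    rw [hP] at this
    exact this
  obtain ⟨φ, m, hφ, hσφ⟩ := hS F P hPbot hunr σF hstab
  obtain ⟨A, τ, hA, hτ, hτφ⟩ := hG F P _ hvp hℓP hunr φ hφ
  -- the new part: `φ` is a power of `σF`
  have hdeg : Nat.card (𝓞 E ⧸ P.under (𝓞 E)) = Nat.card (ℤ ⧸ P.under ℤ) := by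
    rw [Strong.card_under_int P _ hvp hℓP, ← hPv.over, Ideal.absNorm_apply,
      Submodule.cardQuot_apply]
  have hφH : φ ∈ H := by
    rw [← hfix]
    exact Strong.frob_mem_fixingSubgroup E P hPbot hunr hdeg φ hφ
  have hfin : IsOfFinOrder σF := isOfFinOrder_of_finite σF
  obtain ⟨k, hk⟩ := (hfin.mem_powers_iff_mem_zpowers).mpr hφH
  refine ⟨_, A, τ, m, k, hvp, fun h => hvS (Finset.mem_union_left _ h), hA, hτ, ?_, ?_⟩
  · intro x hx
    rw [C5.pow_apply_of_restrict τ φ hτφ m ⟨x, hx⟩, ← hσφ]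
    exact hσF ⟨x, hx⟩
  · intro x hx
    rw [C5.pow_apply_of_restrict σ σF (fun y => (hσF y).symm) k ⟨x, hx⟩]
    have hk' : σF ^ k = φ := hk
    rw [hk']
    exact (hτφ ⟨x, hx⟩).symm

/-- **Weak Chebotarev, generator form.** -/
theorem weakChebotarevGen_holds : WeakChebotarevGen :=
  weakChebotarevGen (stmtCyclic stmtPrimeSum (stmtSplit stmtPrimeSum) stmtCyclicSplit)
    stmtStab stmtGlue

/-- Unfolded form of `weakChebotarevGen_holds`: there are a prime `ℓ ∉ S` and a Frobenius `τ` at a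
place `A` of `ℚ̄` over `ℓ` such that `τ|F` and `σ|F` are powers of each other. -/
theorem exists_frobenius_generator (F : IntermediateField ℚ (AlgebraicClosure ℚ))
    [FiniteDimensional ℚ F] [IsGalois ℚ F] (S : Finset ℕ)
    (σ : AlgebraicClosure ℚ ≃ₐ[ℚ] AlgebraicClosure ℚ) :
    ∃ (ℓ : ℕ) (A : ValuationSubring (AlgebraicClosure ℚ))
      (τ : AlgebraicClosure ℚ ≃ₐ[ℚ] AlgebraicClosure ℚ) (m k : ℕ),
      ℓ.Prime ∧ ℓ ∉ S ∧ A.LiesOverPrime ℓ ∧ A.IsFrobeniusAt τ ℓ ∧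
        (∀ x ∈ F, (τ ^ m) x = σ x) ∧ (∀ x ∈ F, (σ ^ k) x = τ x) :=
  weakChebotarevGen_holds F S σ

end Fermat.Agent.Cheb
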